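import Fermat.Agent.X1Char.KeyForm
import Fermat.Agent.X1.CharES
import Fermat.Agent.X1.KeyIndex

/-!
# The mod `ℓ` Eichler--Shimura package on `Γ₁(M)` from KEY
-/

set_option autoImplicit false

open UpperHalfPlane hiding I
open ModularForm Matrix.SpecialLinearGroup CongruenceSubgroup
open scoped MatrixGroups Manifold ModularForm

noncomputable section

namespace Fermat.Agent.X1Char

open Fermat.Agent.EisChar Fermat.Agent.HeckePar Fermat.Agent.DS
open Fermat.Agent.X1 (Between)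

theorem _root_.Fermat.Agent.EisChar.CharForm.restrict {Γ Γ' : Subgroup SL(2, ℤ)} (h : Γ' ≤ Γ)
    {χ : Γ →* ℂˣ} {k : ℤ} {f : ℍ → ℂ} (hf : CharForm Γ χ k f) :
    CharForm Γ' (χ.comp (Subgroup.inclusion h)) k f where
  holo := hf.holo
  slash γ := hf.slash (Subgroup.inclusion h γ)
  bdd := hf.bdd

/-- KEY descends from a smaller group. -/
theorem KeyForm.of_le {ι : Qbar →+* ℂ} {Γ Γ' : Subgroup SL(2, ℤ)} (h : Γ' ≤ Γ) {n : ℕ}
    {A : ValuationSubring Qbar}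
    (hψ : ∀ ψ : Γ →* ℂˣ, ψ ^ n = 1 → (∀ γ : Γ, (γ : SL(2, ℤ)) ∈ Γ' → ψ γ = 1) → ψ = 1)
    (key : KeyForm ι Γ' n A) : KeyForm ι Γ n A := by
  intro k ψ hn hinf g f hg hf G H hG hH hred h0
  refine hψ ψ hn fun γ hγ => ?_
  have h1 := key k (ψ.comp (Subgroup.inclusion h)) ?_ ?_ g f (hg.restrict h) (hf.restrict h)
    G H hG hH hred h0
  · exact DFunLike.congr_fun h1 ⟨γ, hγ⟩
  · refine MonoidHom.ext fun γ => ?_
    have := DFunLike.congr_fun hn (Subgroup.inclusion h γ)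
    simpa using this
  · intro γ hγ
    exact hinf (Subgroup.inclusion h γ) hγ

theorem keyForm_Gamma1_of_mul {ι : Qbar →+* ℂ} {M l r : ℕ} (hl : l.Prime) (h5 : 5 ≤ l)
    (hr0 : r ≠ 0) (hr : ∀ p : ℕ, p.Prime → p ∣ r → p ≤ 3) {A : ValuationSubring Qbar}
    (key : KeyForm ι (Gamma1 (r * M)) l A) : KeyForm ι (Gamma1 M) l A := by
  have hle : Gamma1 (r * M) ≤ Gamma1 M := by
    intro γ hγ
    rw [X1.mem_Gamma1_iff_dvd] at hγ ⊢
    have : (M : ℤ) ∣ ((r * M : ℕ) : ℤ) := by push_cast; exact dvd_mul_left _ _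
    exact ⟨this.trans hγ.1, this.trans hγ.2⟩
  exact KeyForm.of_le hle (fun ψ h1 h2 => X1.char_eq_one_of_level hl h5 r hr0 hr ψ h1 h2) key

theorem mul_inv_mul_mul_cancel {G : Type*} [CommGroup G] (a b : G) : a * (a * b)⁻¹ * b = 1 := by
  rw [mul_right_comm, mul_inv_cancel]

theorem xGroup_eq_charX (M : ℕ) (Γ : Subgroup SL(2, ℤ)) [Between M Γ] (l : ℕ) :
    xGroup M Γ l = X1.charX M Γ l := by
  ext χ
  rw [mem_xGroup, X1.mem_charX]
  rfl

section

variable {M l : ℕ} [NeZero M] [hl : Fact l.Prime] (ι : Qbar →+* ℂ)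

/-- the Galois action on `charX`. -/
def actX (σ : GQ) : X1.charX M (Gamma1 M) l →* X1.charX M (Gamma1 M) l where
  toFun χ := ⟨(galX ι M (Gamma1 M) l σ ⟨χ.1, by rw [xGroup_eq_charX]; exact χ.2⟩).1,
    (xGroup_eq_charX M (Gamma1 M) l).le (Subtype.property _)⟩
  map_one' := Subtype.ext (by
    have : (⟨(1 : X1.charX M (Gamma1 M) l).1, by rw [xGroup_eq_charX]; exact one_mem _⟩ :
      xGroup M (Gamma1 M) l) = 1 := rfl
    show (galX ι M (Gamma1 M) l σ _).1 = _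
    rw [this, map_one]
    rfl)
  map_mul' χ ψ := Subtype.ext (by
    have : (⟨(χ * ψ : X1.charX M (Gamma1 M) l).1, by rw [xGroup_eq_charX]; exact (χ * ψ).2⟩ :
      xGroup M (Gamma1 M) l) =
        ⟨χ.1, by rw [xGroup_eq_charX]; exact χ.2⟩ * ⟨ψ.1, by rw [xGroup_eq_charX]; exact ψ.2⟩ := rfl
    show (galX ι M (Gamma1 M) l σ _).1 = _
    rw [this, map_mul]
    rfl)

theorem actX_coe (σ : GQ) (χ : X1.charX M (Gamma1 M) l) :
    (actX ι σ χ).1 = (galX ι M (Gamma1 M) l σ ⟨χ.1, by rw [xGroup_eq_charX]; exact χ.2⟩).1 := rfl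

/-- the representation -/
def RX : GQ →* Module.End (ZMod l) (X1.modX M (Gamma1 M) l) where
  toFun σ := X1.trans (actX ι σ)
  map_one' := by
    rw [← X1.trans_one]
    congr 1
    refine MonoidHom.ext fun χ => Subtype.ext ?_
    rw [actX_coe, map_one]
    rfl
  map_mul' σ τ := by
    rw [← X1.trans_comp]
    congr 1
    refine MonoidHom.ext fun χ => Subtype.ext ?_
    rw [actX_coe, map_mul]
    rfl

/-- the element of `xGroup` attached to an element of `modX`. -/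
def xOf (c : X1.modX M (Gamma1 M) l) : xGroup M (Gamma1 M) l :=
  ⟨X1.toChar c.1, by rw [xGroup_eq_charX]; exact c.2⟩

omit [NeZero M] in
theorem xOf_injective : Function.Injective (xOf : X1.modX M (Gamma1 M) l → _) := fun _ _ h =>
  Subtype.ext (X1.toChar_injective (congrArg Subtype.val h))

theorem xOf_RX (σ : GQ) (c : X1.modX M (Gamma1 M) l) :
    xOf (RX ι σ c) = galX ι M (Gamma1 M) l σ (xOf c) := Subtype.ext (X1.toChar_trans _ c)

theorem toChar_RX (σ : GQ) (c : X1.modX M (Gamma1 M) l) :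
    X1.toChar (RX ι σ c).1 = (galX ι M (Gamma1 M) l σ (xOf c)).1 := X1.toChar_trans _ c

theorem xOf_tOp (p : ℕ) [Fact p.Prime] (c : X1.modX M (Gamma1 M) l) :
    xOf ⟨X1.tOp M (ZMod l) (Gamma1 M) (ZMod l) p c.1, X1.tOp_mem_modX p c.2⟩ =
      tX ι M (Gamma1 M) l p (xOf c) :=
  Subtype.ext (X1.toChar_tOp M (Gamma1 M) p c.1)

omit [NeZero M] in
theorem xOf_dOp (u : (ZMod M)ˣ) (c : X1.modX M (Gamma1 M) l) :
    xOf ⟨X1.dOp M (ZMod l) (Gamma1 M) (ZMod l) u c.1, X1.dOp_mem_modX u c.2⟩ =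
      dX M (Gamma1 M) l u (xOf c) :=
  Subtype.ext (X1.toChar_dOp M (Gamma1 M) u c.1)

/-- **The mod `ℓ` Eichler--Shimura package on `Γ₁(M)` from KEY.** -/
def es1_of_key (key : ∀ (p : ℕ), p.Prime → ¬ p ∣ M → p ≠ l → ∀ A : ValuationSubring Qbar,
    A.LiesOverPrime p → KeyForm ι (Gamma1 M) l A) : X1.ES1 M l where
  V := X1.modX M (Gamma1 M) l
  mem_of_parabolic _ hc := X1.mem_modX_of_parabolic hc
  tOp_mem p _ _ _ hx := X1.tOp_mem_modX p hx
  dOp_mem u _ hx := X1.dOp_mem_modX u hx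
  R := RX ι
  R_tOp σ p _ hp x := by
    apply X1.toChar_injective
    rw [toChar_RX, xOf_tOp ι, galX_tX, X1.toChar_tOp, toChar_RX]
    rfl
  R_dOp σ u x := by
    apply X1.toChar_injective
    rw [toChar_RX, xOf_dOp, galX_dX, X1.toChar_dOp, toChar_RX]
    rfl
  finiteLevel := by
    obtain ⟨L, hL, h⟩ := galX_finiteLevel (ι := ι) (M := M) (Γ := Gamma1 M) (n := l)
    refine ⟨L, hL, fun σ hσ => ?_⟩
    refine LinearMap.ext fun c => xOf_injective ?_
    rw [xOf_RX, h σ hσ]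
    rfl
  inertia p hp hpM hpl A hA σ hσ := by
    refine LinearMap.ext fun c => xOf_injective ?_
    rw [xOf_RX, galX_inertia hp hA (keyFun_of_keyForm (key p hp hpM hpl A hA)) hσ]
    rfl
  frobenius p hp hpM hpl A hA φ hφ x := by
    apply X1.toChar_injective
    have h1 := galX_frobenius hpM hA (keyFun_of_keyForm (key p hp.out hpM hpl A hA)) hφ (xOf x)
    rw [X1.toChar_add, X1.toChar_sub, X1.toChar_zero, toChar_RX, xOf_RX, X1.toChar_tOp, toChar_RX]
    have h3 : X1.toChar ((p : ZMod l) • X1.dOp M (ZMod l) (Gamma1 M) (ZMod l) (X1.pUnit M p) x.1) =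
        ((dX M (Gamma1 M) l (X1.pUnit M p) (xOf x)) ^ p).1 := by
      rw [Nat.cast_smul_eq_nsmul, X1.toChar_nsmul, X1.toChar_dOp]
      rfl
    rw [h3]
    have h4 := congrArg Subtype.val h1
    have h5 : X1.tChar M (Gamma1 M) p (galX ι M (Gamma1 M) l φ (xOf x)).1 =
        (tX ι M (Gamma1 M) l p (galX ι M (Gamma1 M) l φ (xOf x))).1 := rfl
    rw [h5, ← h4, Subgroup.coe_mul]
    exact mul_inv_mul_mul_cancel _ _

end

/-- **ES1 from KEY at auxiliary level**: for every prime `p ∤ M ℓ` one may replace `M` by `r M`,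
where `r` is any product of `2`s and `3`s. -/
theorem es1_of_key_level (ι : Qbar →+* ℂ) {M l : ℕ} [NeZero M] [hl : Fact l.Prime] (h5 : 5 ≤ l)
    (key : ∀ (p : ℕ), p.Prime → ¬ p ∣ M → p ≠ l → ∃ r : ℕ, r ≠ 0 ∧
      (∀ q : ℕ, q.Prime → q ∣ r → q ≤ 3) ∧ ∀ A : ValuationSubring Qbar, A.LiesOverPrime p →
        KeyForm ι (Gamma1 (r * M)) l A) : Nonempty (X1.ES1 M l) :=
  ⟨es1_of_key ι fun p hp hpM hpl A hA => by
    obtain ⟨r, hr0, hr, h⟩ := key p hp hpM hpl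
    exact keyForm_Gamma1_of_mul hl.out h5 hr0 hr (h A hA)⟩

end Fermat.Agent.X1Char

end
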