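import Fermat.Agent.EisChar.Descent
import Fermat.Agent.FG.Basic
import Fermat.Agent.Igusa.DeltaQ
import Fermat.Agent.ModFun.RootSeries

/-!
# Modular functions with character on a general finite index subgroup

`IsCF ι Γ χ F y`: `F` is holomorphic on `ℍ`, `F (γ τ) = χ(γ) F τ` for `γ ∈ Γ`, meromorphic at the
cusps, with Laurent expansion `y` at `∞` (coefficients in `K`, embedded in `ℂ` by `ι`).
-/

set_option autoImplicit false

open UpperHalfPlane hiding I
open ModularForm Matrix.SpecialLinearGroup Filter Asymptotics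
open scoped MatrixGroups Manifold ModularForm Polynomial Topology

noncomputable section

namespace Fermat.Agent.X1Char

open Fermat.Agent.JLevelOne Fermat.Agent.X0Emb Fermat.Agent.ModFun ModularCurve Fermat.Agent.FG
open Fermat.Agent.EisChar Fermat.Agent.S28aux Fermat.Agent.IntStruct

variable {K : Type*} [Field K]

/-- `F` is a modular function with character `χ` on `Γ`, holomorphic on `ℍ`, with Laurent
expansion `y` (with coefficients in `K`) in `q = exp (2πiτ)`. -/
structure IsCF (ι : K →+* ℂ) (Γ : Subgroup SL(2, ℤ)) (χ : Γ →* ℂˣ) (F : ℍ → ℂ)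
    (y : LaurentSeries K) : Prop where
  mdiff : MDiff F
  char : ∀ (γ : Γ) (τ : ℍ), F ((γ : SL(2, ℤ)) • τ) = ((χ γ : ℂˣ) : ℂ) * F τ
  growth : ModGrowth F
  lexp : LExp 1 F (coeffMap ι y)

variable {ι : K →+* ℂ} {Γ : Subgroup SL(2, ℤ)} {χ ψ : Γ →* ℂˣ} {F G : ℍ → ℂ}
  {x y : LaurentSeries K}

namespace IsCF

theorem mul (hF : IsCF ι Γ χ F x) (hG : IsCF ι Γ ψ G y) : IsCF ι Γ (χ * ψ) (F * G) (x * y) where
  mdiff := hF.mdiff.mul hG.mdiff
  char γ τ := by
    simp only [Pi.mul_apply, hF.char, hG.char, MonoidHom.mul_apply, Units.val_mul]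
    ring
  growth := hF.growth.mul hG.growth
  lexp := by rw [map_mul]; exact hF.lexp.mul hG.lexp

theorem one : IsCF ι Γ 1 1 (1 : LaurentSeries K) where
  mdiff := mdifferentiable_const
  char γ τ := by simp
  growth := ModGrowth.one
  lexp := by rw [map_one]; exact LExp.one 1

theorem char_congr (h : IsCF ι Γ χ F x) (e : χ = ψ) : IsCF ι Γ ψ F x := e ▸ h

theorem pow (hF : IsCF ι Γ χ F x) (n : ℕ) : IsCF ι Γ (χ ^ n) (F ^ n) (x ^ n) := by
  induction n with
  | zero =>
    rw [pow_zero, pow_zero]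
    exact one.char_congr (pow_zero χ).symm
  | succ n ih =>
    rw [pow_succ, pow_succ]
    exact (ih.mul hF).char_congr (pow_succ χ n).symm

theorem lexp_const (c : K) :
    LExp 1 (fun _ => ι c) (coeffMap ι (algebraMap K (LaurentSeries K) c)) := by
  have := (IsMF.const (ι := ι) ⊤ 1 c).lexp
  simpa using this

theorem smul (c : K) (hF : IsCF ι Γ χ F x) :
    IsCF ι Γ χ (ι c • F) (algebraMap K (LaurentSeries K) c * x) where
  mdiff := hF.mdiff.const_smul _
  char γ τ := by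
    simp only [Pi.smul_apply, hF.char, smul_eq_mul]
    ring
  growth := (ModGrowth.const (ι c)).mul hF.growth
  lexp := by
    rw [map_mul]
    exact (lexp_const c).mul hF.lexp

theorem toIsMF (hF : IsCF ι Γ 1 F x) : IsMF ι Γ 1 F x where
  mdiff := hF.mdiff
  inv γ hγ τ := by
    have := hF.char ⟨γ, hγ⟩ τ
    simpa using this
  growth := hF.growth
  lexp := by simpa using hF.lexp

theorem ofIsMF (hF : IsMF ι Γ 1 F x) : IsCF ι Γ 1 F x where
  mdiff := hF.mdiff
  char γ τ := by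
    rw [hF.inv γ γ.2]
    simp
  growth := hF.growth
  lexp := by simpa using hF.lexp

theorem unique (h1 : LExp 1 F (coeffMap ι x)) (h2 : LExp 1 F (coeffMap ι y)) : x = y :=
  coeffMap_injective ι (h1.unique one_pos h2)

theorem funext' (h1 : LExp 1 F (coeffMap ι x)) (h2 : LExp 1 G (coeffMap ι x)) : F = G :=
  h1.funext h2

theorem eq_zero_iff (h1 : LExp 1 F (coeffMap ι x)) : F = 0 ↔ x = 0 := by
  constructor
  · rintro rfl
    exact unique h1 (by rw [map_zero]; exact LExp.zero 1)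
  · rintro rfl
    exact funext' h1 (by rw [map_zero]; exact LExp.zero 1)

theorem vadd_one (h : LExp 1 F (coeffMap ι x)) (τ : ℍ) : F ((1 : ℝ) +ᵥ τ) = F τ := by
  refine (h ((1 : ℝ) +ᵥ τ)).unique ?_
  have h2 : Function.Periodic.qParam 1 (((1 : ℝ) +ᵥ τ : ℍ) : ℂ) =
      Function.Periodic.qParam 1 τ := by
    rw [Function.Periodic.qParam, Function.Periodic.qParam, Complex.exp_eq_exp_iff_exists_int]
    refine ⟨1, ?_⟩
    rw [coe_vadd]
    push_cast
    ring
  rw [h2]
  exact h τ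

theorem T_smul (h : LExp 1 F (coeffMap ι x)) (τ : ℍ) : F (ModularGroup.T • τ) = F τ := by
  rw [UpperHalfPlane.modular_T_smul, vadd_one h]

theorem T_zpow_smul (h : LExp 1 F (coeffMap ι x)) (j : ℤ) (τ : ℍ) :
    F (ModularGroup.T ^ j • τ) = F τ := by
  induction j using Int.induction_on generalizing τ with
  | zero => simp
  | succ j ih => rw [zpow_add_one, mul_smul, ih, T_smul h]
  | pred j ih =>
    rw [zpow_sub_one, mul_smul, ih, ← T_smul h (ModularGroup.T⁻¹ • τ), smul_inv_smul]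

/-- A function with a `q`-expansion has a character which is trivial on the stabiliser of `∞`. -/
theorem eq_one_of_infty (hF : IsCF ι Γ χ F x) (hx : x ≠ 0) (γ : Γ)
    (hγ : ((γ : SL(2, ℤ)) : Matrix (Fin 2) (Fin 2) ℤ) 1 0 = 0) : χ γ = 1 := by
  have hF0 : F ≠ 0 := fun h => hx ((eq_zero_iff hF.lexp).mp h)
  obtain ⟨τ, hτ⟩ := Function.ne_iff.mp hF0
  have h1 : F ((γ : SL(2, ℤ)) • τ) = F τ := by
    obtain ⟨j, hj | hj⟩ := stab_infty γ hγ
    · rw [hj, T_zpow_smul hF.lexp]
    · rw [hj, ModularGroup.SL_neg_smul, T_zpow_smul hF.lexp]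
  rw [hF.char] at h1
  ext
  rw [Units.val_one]
  exact mul_right_cancel₀ hτ (h1.trans (one_mul _).symm)

/-- The character is determined by a nonzero expansion. -/
theorem char_unique (hF : IsCF ι Γ χ F x) (hG : IsCF ι Γ ψ G x) (hx : x ≠ 0) : χ = ψ := by
  have hFG : F = G := funext' hF.lexp hG.lexp
  subst hFG
  have hF0 : F ≠ 0 := fun h => hx ((eq_zero_iff hF.lexp).mp h)
  obtain ⟨τ, hτ⟩ := Function.ne_iff.mp hF0
  ext γ
  have h1 := hF.char γ τ
  rw [hG.char γ τ] at h1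
  exact (mul_right_cancel₀ hτ h1).symm

end IsCF

/-! ### The bridge with forms with character -/

theorem lexp_discriminant_inv : LExp 1 (fun τ => (discriminant τ)⁻¹) (deltaInvC ℂ) :=
  Igusa.hasLExp_discriminant_inv

theorem lexp_discriminant' : LExp 1 discriminant (deltaC ℂ) := Igusa.hasLExp_discriminant

theorem growthInf_disc_inv : GrowthInf (fun τ => (discriminant τ)⁻¹) :=
  LExp_growthInf one_pos lexp_discriminant_inv

theorem disc_slash (m : ℕ) (γ : SL(2, ℤ)) (τ : ℍ) :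
    discriminant (γ • τ) ^ m = denom γ τ ^ ((12 : ℤ) * m) * discriminant τ ^ m := by
  rw [discriminant_smul, mul_pow, ← zpow_natCast (denom γ τ ^ (12 : ℤ)), ← zpow_mul]

/-- A form with character of weight `12 m` divided by `Δ ^ m`. -/
theorem isCF_of_charForm [Γ.FiniteIndex] (hTΓ : ModularGroup.T ∈ Γ) {m : ℕ} {f : ℍ → ℂ}
    (hf : CharForm Γ χ (12 * m) f) (hT : χ ⟨ModularGroup.T, hTΓ⟩ = 1) (P : PowerSeries K)
    (hP : qExpansion 1 f = P.map ι) :
    IsCF ι Γ χ (fun τ => f τ * (discriminant τ)⁻¹ ^ m)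
      (HahnSeries.ofPowerSeries ℤ K P * deltaInvC K ^ m) where
  mdiff := by
    have h1 : MDiff (fun τ : ℍ => (discriminant τ)⁻¹) := by
      have h0 := (mdifferentiable_const (c := (1 : ℂ))).div mdiff_discriminant discriminant_ne_zero
      have e : (fun τ : ℍ => (discriminant τ)⁻¹) = (fun _ : ℍ => (1 : ℂ)) / discriminant := by
        funext τ
        simp
      rw [e]
      exact h0
    exact hf.holo.mul (h1.pow m)
  char γ τ := by
    have hd : denom (γ : SL(2, ℤ)) τ ≠ 0 := denom_ne_zero _ _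
    have hd' : denom (γ : SL(2, ℤ)) τ ^ ((12 : ℤ) * m) ≠ 0 := zpow_ne_zero _ hd
    have h1 := congrFun (hf.slash γ) τ
    rw [SL_slash_apply, zpow_neg] at h1
    have h2 : f ((γ : SL(2, ℤ)) • τ) =
        ((χ γ : ℂˣ) : ℂ) * f τ * denom (γ : SL(2, ℤ)) τ ^ ((12 : ℤ) * m) := by
      rw [Pi.smul_apply, smul_eq_mul] at h1
      rw [← h1, mul_assoc, inv_mul_cancel₀ hd', mul_one]
    rw [h2, inv_pow, disc_slash, mul_inv, inv_pow]
    field_simp
  growth := by
    intro σ
    have h1 : (fun τ => f (σ • τ) * (discriminant (σ • τ))⁻¹ ^ m) =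
        (f ∣[(12 * m : ℤ)] σ) * (fun τ => (discriminant τ)⁻¹) ^ m := by
      funext τ
      simp only [Pi.mul_apply, Pi.pow_apply]
      rw [SL_slash_apply, zpow_neg, inv_pow, disc_slash, mul_inv, inv_pow]
      ring
    rw [h1]
    exact (GrowthInf.of_bounded (hf.bdd σ)).mul (growthInf_disc_inv.pow m)
  lexp := by
    have h1 : LExp 1 f (coeffMap ι (HahnSeries.ofPowerSeries ℤ K P)) := by
      rw [X0Emb.coeffMap_ofPowerSeries, ← hP]
      refine LExp.of_hasSum fun τ => ?_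
      have hmem := hf.mem_qAlg hT
      have := UpperHalfPlane.hasSum_qExpansion (h := 1) one_pos (by simpa using hmem.1)
        hmem.2.1 hmem.2.2 τ
      simpa using this
    rw [map_mul, map_pow, coeffMap_deltaInvC]
    exact h1.mul (lexp_discriminant_inv.pow m)

/-- A modular function with character times a power of `Δ` is a form with character. -/
theorem IsCF.exists_charForm [Γ.FiniteIndex] (hF : IsCF ι Γ χ F y) :
    ∃ m : ℕ, CharForm Γ χ (12 * m) (fun τ => F τ * discriminant τ ^ m) := by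
  classical
  -- a uniform bound
  have hb : ∀ q : SL(2, ℤ) ⧸ Γ, ∃ M : ℕ, IsBoundedAtImInfty
      ((fun τ => F ((q.out)⁻¹ • τ)) * (discriminant : ℍ → ℂ) ^ M) := fun q =>
    (show GrowthInf (fun τ => F ((q.out)⁻¹ • τ)) from hF.growth _).bounded_mul_disc
  choose M hM using hb
  have : Fintype (SL(2, ℤ) ⧸ Γ) := Fintype.ofFinite _
  set m := ∑ q, M q with hm
  have hMm : ∀ q, M q ≤ m := fun q => Finset.single_le_sum (fun _ _ => Nat.zero_le _)
    (Finset.mem_univ q)
  have hbig : ∀ q : SL(2, ℤ) ⧸ Γ, IsBoundedAtImInfty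
      ((fun τ => F ((q.out)⁻¹ • τ)) * (discriminant : ℍ → ℂ) ^ m) := fun q =>
    bdd_mul_disc_pow (hMm q) (hM q)
  refine ⟨m, ?_, ?_, ?_⟩
  · exact hF.mdiff.mul (mdiff_discriminant.pow m)
  · intro γ
    ext τ
    have hd : denom (γ : SL(2, ℤ)) τ ≠ 0 := denom_ne_zero _ _
    have hd' : denom (γ : SL(2, ℤ)) τ ^ ((12 : ℤ) * m) ≠ 0 := zpow_ne_zero _ hd
    rw [SL_slash_apply, hF.char, disc_slash, zpow_neg, Pi.smul_apply, smul_eq_mul]
    field_simp
  · intro g
    -- write `g⁻¹ = q.out * γ`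
    set q : SL(2, ℤ) ⧸ Γ := ((g⁻¹ : SL(2, ℤ)) : SL(2, ℤ) ⧸ Γ) with hq
    have hmem : (q.out)⁻¹ * g⁻¹ ∈ Γ := by
      rw [← QuotientGroup.eq, QuotientGroup.out_eq']
    set δ : Γ := ⟨(q.out)⁻¹ * g⁻¹, hmem⟩ with hδ
    have hg : g = ((δ⁻¹ : Γ) : SL(2, ℤ)) * (q.out)⁻¹ := by
      rw [Subgroup.coe_inv, hδ]
      group
    have h1 : ((fun τ => F τ * discriminant τ ^ m) ∣[(12 * m : ℤ)] g) =
        ((χ δ⁻¹ : ℂˣ) : ℂ) • ((fun τ => F ((q.out)⁻¹ • τ)) * (discriminant : ℍ → ℂ) ^ m) := by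
      ext τ
      have hd : denom g τ ≠ 0 := denom_ne_zero _ _
      have hd' : denom g τ ^ ((12 : ℤ) * m) ≠ 0 := zpow_ne_zero _ hd
      have h2 : F (g • τ) = ((χ δ⁻¹ : ℂˣ) : ℂ) * F ((q.out)⁻¹ • τ) := by
        conv_lhs => rw [hg, mul_smul]
        exact hF.char _ _
      rw [SL_slash_apply, disc_slash, zpow_neg, h2]
      simp only [Pi.smul_apply, Pi.mul_apply, Pi.pow_apply, smul_eq_mul]
      field_simp
    rw [h1]
    exact (hbig q).smul _

end Fermat.Agent.X1Char
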