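import Fermat.Agent.X1Char.Reduce

/-!
# The Galois action on `xGroup`
-/

set_option autoImplicit false

open UpperHalfPlane hiding I
open ModularForm Matrix.SpecialLinearGroup Filter Asymptotics CongruenceSubgroup
open scoped MatrixGroups Manifold ModularForm Polynomial Topology

noncomputable section

namespace Fermat.Agent.X1Char

open Fermat.Agent.JLevelOne Fermat.Agent.X0Emb Fermat.Agent.ModFun ModularCurve Fermat.Agent.FG
open Fermat.Agent.EisChar Fermat.Agent.S28aux Fermat.Agent.IntStruct Fermat.Agent.HeckePar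
open Fermat.Agent.X1 Fermat.Agent.TEll Fermat.Agent.GaussVal

section Aut

variable {K : Type} [Field K] [Countable K] [IsAlgClosed K] (ι : K →+* ℂ) {M : ℕ}
  {Γ : Subgroup SL(2, ℤ)} [hΓ : Between M Γ] [GoodGroup Γ] [hD : DiaGroup M Γ] {n : ℕ} [NeZero n]

theorem conjX_mem (σ : K ≃+* K) (χ : xGroup M Γ n) : (conjChar ι σ (toCG χ)).1 ∈ xGroup M Γ n := by
  rw [mem_xGroup]
  intro u
  rw [dChar_conjChar ι σ (toCG χ) χ.2 u]
  exact (conjChar ι σ _).2

/-- The action of an automorphism on `xGroup`. -/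
def conjX (σ : K ≃+* K) (χ : xGroup M Γ n) : xGroup M Γ n := ⟨_, conjX_mem ι σ χ⟩

theorem coe_conjX (σ : K ≃+* K) (χ : xGroup M Γ n) :
    (conjX ι σ χ : Γ →* ℂˣ) = (conjChar ι σ (toCG χ)).1 := rfl

theorem toCG_conjX (σ : K ≃+* K) (χ : xGroup M Γ n) :
    toCG (conjX ι σ χ) = conjChar ι σ (toCG χ) := rfl

omit [GoodGroup Γ] hD [NeZero n] in
theorem toCG_injective : Function.Injective (toCG : xGroup M Γ n → charGroup Γ n) :=
  fun _ _ h => Subtype.ext (congrArg (fun x : charGroup Γ n => x.1) h)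

/-- The characterisation of the conjugate. -/
theorem conjX_spec (σ : K ≃+* K) (χ : xGroup M Γ n) {F : ℍ → ℂ} {y : LaurentSeries K}
    (hF : IsCF ι Γ χ.1 F y) :
    ∃ F' : ℍ → ℂ, IsCF ι Γ (conjX ι σ χ).1 F' (coeffMap (σ : K →+* K) y) :=
  conjChar_spec ι σ (toCG χ) hF

theorem eq_conjX (σ : K ≃+* K) (χ : xGroup M Γ n) {F : ℍ → ℂ} {y : LaurentSeries K}
    (hF : IsCF ι Γ χ.1 F y) (hy : y ≠ 0) {ψ : Γ →* ℂˣ} {F' : ℍ → ℂ}
    (hF' : IsCF ι Γ ψ F' (coeffMap (σ : K →+* K) y)) : ψ = (conjX ι σ χ).1 :=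
  eq_conjChar ι σ (toCG χ) hF hy hF'

omit hD in
theorem exists_isCFX (χ : xGroup M Γ n) :
    ∃ (F : ℍ → ℂ) (y : LaurentSeries K), y ≠ 0 ∧ IsCF ι Γ χ.1 F y := by
  obtain ⟨F, y, hy, hF, -⟩ := exists_isCF' ι (toCG χ)
  exact ⟨F, y, hy, hF⟩

variable (M Γ n) in
/-- The action of the automorphisms of `K` on `xGroup`. -/
def autX : (K ≃+* K) →* MulAut (xGroup M Γ n) where
  toFun σ :=
    { toFun := conjX ι σ
      invFun := conjX ι σ⁻¹
      left_inv := fun χ => toCG_injective (by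
        rw [toCG_conjX, toCG_conjX, ← conjChar_mul, inv_mul_cancel, conjChar_one])
      right_inv := fun χ => toCG_injective (by
        rw [toCG_conjX, toCG_conjX, ← conjChar_mul, mul_inv_cancel, conjChar_one])
      map_mul' := fun χ ψ => toCG_injective (by
        have h1 : toCG (χ * ψ) = toCG χ * toCG ψ := rfl
        have h2 : toCG (conjX ι σ χ * conjX ι σ ψ) = toCG (conjX ι σ χ) * toCG (conjX ι σ ψ) := rfl
        rw [h2, toCG_conjX, toCG_conjX, toCG_conjX, h1, conjChar_map_mul]) }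
  map_one' := by
    ext χ : 1
    exact toCG_injective (conjChar_one ι _)
  map_mul' σ τ := by
    ext χ : 1
    exact toCG_injective (conjChar_mul ι σ τ _)

theorem autX_apply (σ : K ≃+* K) (χ : xGroup M Γ n) : autX ι M Γ n σ χ = conjX ι σ χ := rfl

variable (M Γ n) in
/-- Diamond operators on `xGroup`. -/
def dX (u : (ZMod M)ˣ) : xGroup M Γ n →* xGroup M Γ n :=
  ((dChar M Γ u).comp (xGroup M Γ n).subtype).codRestrict _ fun χ => dChar_mem_xGroup χ.2 u

omit [GoodGroup Γ] hD [NeZero n] in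
@[simp] theorem coe_dX (u : (ZMod M)ˣ) (χ : xGroup M Γ n) :
    (dX M Γ n u χ : Γ →* ℂˣ) = dChar M Γ u χ.1 := rfl

variable (M Γ n) in
/-- Hecke operators on `xGroup`. (The embedding `ι` is only used in the proof.) -/
def tX (p : ℕ) [Fact p.Prime] : xGroup M Γ n →* xGroup M Γ n :=
  ((tChar M Γ p).comp (xGroup M Γ n).subtype).codRestrict _ fun χ =>
    tChar_mem_xGroup ι χ.2 p

@[simp] theorem coe_tX (p : ℕ) [Fact p.Prime] (χ : xGroup M Γ n) :
    (tX ι M Γ n p χ : Γ →* ℂˣ) = tChar M Γ p χ.1 := rfl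

theorem autX_dX (σ : K ≃+* K) (u : (ZMod M)ˣ) (χ : xGroup M Γ n) :
    autX ι M Γ n σ (dX M Γ n u χ) = dX M Γ n u (autX ι M Γ n σ χ) :=
  Subtype.ext (dChar_conjChar ι σ (toCG χ) χ.2 u).symm

theorem autX_tX (σ : K ≃+* K) (p : ℕ) [Fact p.Prime] (χ : xGroup M Γ n) :
    autX ι M Γ n σ (tX ι M Γ n p χ) = tX ι M Γ n p (autX ι M Γ n σ χ) :=
  Subtype.ext (tChar_conjChar (ι := ι) σ (toCG χ) χ.2 (conjX_mem ι σ χ) p
    (tChar_mem_charGroup ι χ.2 p)).symm

end Aut

end Fermat.Agent.X1Char
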