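import Fermat.Agent.X1Char.Reduce
import Fermat.Agent.X1.HeckeNeb
import Fermat.Agent.DS.IntGamma

/-!
# Groups between `Γ₁(M)` and `Γ₀(M)` satisfy all the hypotheses
-/

set_option autoImplicit false

open UpperHalfPlane hiding I
open ModularForm Matrix.SpecialLinearGroup Filter Asymptotics CongruenceSubgroup
open scoped MatrixGroups Manifold ModularForm Polynomial Topology

noncomputable section

namespace Fermat.Agent.X1Char

open Fermat.Agent.JLevelOne Fermat.Agent.X0Emb Fermat.Agent.ModFun ModularCurve Fermat.Agent.FG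
open Fermat.Agent.EisChar Fermat.Agent.S28aux Fermat.Agent.IntStruct Fermat.Agent.HeckePar
open Fermat.Agent.X1 ModularFormClass

variable {M : ℕ} {Γ : Subgroup SL(2, ℤ)} [hΓ : Between M Γ]

/-! ### Conjugation commutes with the diamond operators on cusp forms -/

theorem qExpansion_eq_map_iff {f f' : ℍ → ℂ} {σ : ℂ →+* ℂ} :
    qExpansion 1 f' = (qExpansion 1 f).map σ ↔ ∀ n, qCoeff f' n = σ (qCoeff f n) := by
  constructor
  · intro h n
    rw [qCoeff, h, PowerSeries.coeff_map]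
    rfl
  · intro h
    ext n
    rw [PowerSeries.coeff_map]
    exact h n

theorem dCusp_sigma [NeZero M] [Γ.FiniteIndex]
    (hconj : ∀ (k : ℤ) (f : CuspForm (Γ : Subgroup (GL (Fin 2) ℝ)) k) (σ : ℂ →+* ℂ),
      ∃ f' : CuspForm (Γ : Subgroup (GL (Fin 2) ℝ)) k,
        qExpansion 1 f' = (qExpansion 1 f).map σ)
    {k : ℤ} (σ : ℂ →+* ℂ) (u : (ZMod M)ˣ)
    (f f' : CuspForm (Γ : Subgroup (GL (Fin 2) ℝ)) k)
    (h : qExpansion 1 f' = (qExpansion 1 f).map σ) :
    qExpansion 1 (dCusp M Γ k u f') = (qExpansion 1 (dCusp M Γ k u f)).map σ := by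
  obtain ⟨p, -, hp, hpu⟩ := Nat.forall_exists_prime_gt_and_eq_mod u.isUnit 0
  have hc : p.Coprime M := by
    rw [← ZMod.isUnit_iff_coprime, hpu]
    exact u.isUnit
  have hpM : ¬ p ∣ M := (Nat.Prime.coprime_iff_not_dvd hp).mp hc
  have hpf : Fact p.Prime := ⟨hp⟩
  have hp0 : p ≠ 0 := hp.ne_zero
  have h2 : pUnit M p = u := Units.ext (by rw [coe_pUnit hc, hpu])
  obtain ⟨D, hD⟩ := hconj k (dCusp M Γ k u f) σ
  obtain ⟨T, hT⟩ := hconj k (tCusp M Γ k p f) σ
  rw [qExpansion_eq_map_iff] at h hD hT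
  have hX : D = dCusp M Γ k u f' := by
    rw [← sub_eq_zero]
    refine eq_zero_of_diag Γ p hpM _ (T - tCusp M Γ k p f') ?_
    have hXg := qGood_of_modularFormClass M Γ k (D - dCusp M Γ k u f')
    have hYg := qGood_of_modularFormClass M Γ k (T - tCusp M Γ k p f')
    have hlin : ∀ (a b : CuspForm Γ k) (n : ℕ),
        qCoeff ⇑(a - b) n = qCoeff a n - qCoeff b n := by
      intro a b n
      exact map_sub (qLin M Γ k n) a b
    refine hYg.ext (hXg.diag k p) fun n => ?_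
    rw [hXg.qCoeff_diag k hp0, hlin, hlin, hT, hD, qCoeff_tCusp Γ k p hpM,
      qCoeff_tCusp Γ k p hpM, h, h2, map_add]
    split_ifs with hpn
    · rw [map_mul, map_zpow₀, map_natCast]
      ring
    · rw [map_zero]
      ring
  rw [← hX, qExpansion_eq_map_iff]
  exact hD

/-! ### Tools -/

omit hΓ in
theorem charForm_delta (Γ : Subgroup SL(2, ℤ)) : CharForm Γ 1 12 discriminant where
  holo := mdiff_discriminant
  slash γ := by
    rw [MonoidHom.one_apply, Units.val_one, one_smul]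
    exact SlashInvariantFormClass.slash_action_eq CuspForm.discriminant _ ⟨γ, rfl⟩
  bdd g := by
    have h : (discriminant : ℍ → ℂ) ∣[(12 : ℤ)] g = discriminant :=
      SlashInvariantFormClass.slash_action_eq CuspForm.discriminant _ ⟨g, rfl⟩
    rw [h]
    exact discriminant_isZeroAtImInfty.isBoundedAtImInfty

omit hΓ in
theorem discriminant_slash (g : SL(2, ℤ)) : (discriminant : ℍ → ℂ) ∣[(12 : ℤ)] g = discriminant :=
  SlashInvariantFormClass.slash_action_eq CuspForm.discriminant _ ⟨g, rfl⟩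

/-- The product of a modular form with `Δ`. -/
def cuspOf [Γ.FiniteIndex] {k : ℤ} {f : ℍ → ℂ} (hf : CharForm Γ 1 k f) :
    CuspForm (Γ : Subgroup (GL (Fin 2) ℝ)) (k + 12) where
  toFun := f * discriminant
  slash_action_eq' := by
    rintro _ ⟨γ, hγ, rfl⟩
    have h1 : (f * discriminant) ∣[(k + 12 : ℤ)] γ = (f ∣[k] γ) * (discriminant ∣[(12 : ℤ)] γ) :=
      mul_slash_SL2 k 12 γ f discriminant
    have h2 := hf.slash ⟨γ, hγ⟩
    rw [MonoidHom.one_apply, Units.val_one, one_smul] at h2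
    rw [discriminant_slash] at h1
    have h3 : f ∣[k] γ = f := h2
    rw [h3] at h1
    exact h1
  holo' := hf.holo.mul mdiff_discriminant
  zero_at_cusps' := by
    intro c hc
    rw [Subgroup.IsArithmetic.isCusp_iff_isCusp_SL2Z] at hc
    rw [OnePoint.isZeroAt_iff_forall_SL2Z hc]
    intro γ _
    have h1 : (f * discriminant) ∣[(k + 12 : ℤ)] γ = (f ∣[k] γ) * (discriminant ∣[(12 : ℤ)] γ) :=
      mul_slash_SL2 k 12 γ f discriminant
    rw [discriminant_slash] at h1
    rw [h1]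
    have h2 := hf.bdd γ
    exact BoundedAtFilter.mul_zeroAtFilter h2 discriminant_isZeroAtImInfty

omit hΓ in
theorem coe_cuspOf [Γ.FiniteIndex] {k : ℤ} {f : ℍ → ℂ} (hf : CharForm Γ 1 k f) :
    (cuspOf hf : ℍ → ℂ) = f * discriminant := rfl

variable (M) in
include hΓ in
theorem lexp_cusp {k : ℤ} (f : CuspForm (Γ : Subgroup (GL (Fin 2) ℝ)) k) :
    LExp 1 f (HahnSeries.ofPowerSeries ℤ ℂ (qExpansion 1 f)) := by
  have hf := qGood_of_modularFormClass M Γ k f
  refine LExp.of_hasSum fun τ => ?_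
  have := UpperHalfPlane.hasSum_qExpansion (h := 1) one_pos (by simpa using hf.per)
    hf.mdiff hf.bdd τ
  simpa using this

omit hΓ in
theorem exists_common [Γ.FiniteIndex] {F : ℍ → ℂ} {G : LaurentSeries ℂ}
    (hF : IsMF (RingHom.id ℂ) Γ 1 F G) :
    ∃ m : ℕ, ∀ m' ≥ m, CharForm Γ 1 (12 * m') (fun τ => F τ * discriminant τ ^ m') := by
  obtain ⟨m, hm⟩ := (IsCF.ofIsMF hF).exists_charForm
  refine ⟨m, fun m' hm' => ?_⟩
  obtain ⟨j, rfl⟩ := Nat.exists_eq_add_of_le hm'
  have h1 := (hm.mul ((charForm_delta Γ).pow j)).weight_congr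
    (l := 12 * ((m + j : ℕ) : ℤ)) (by push_cast; ring)
  have h2 : (fun τ => F τ * discriminant τ ^ m) * discriminant ^ j =
      fun τ => F τ * discriminant τ ^ (m + j) := by
    funext τ
    simp only [Pi.mul_apply, Pi.pow_apply]
    rw [pow_add, mul_assoc]
  rw [h2] at h1
  exact h1.char_congr (by ext γ; simp)

omit hΓ in
theorem one_slash_smul (m : ℕ) (F : ℍ → ℂ) (δ : SL(2, ℤ)) :
    (fun τ => F τ * discriminant τ ^ m) ∣[(12 * m : ℤ)] δ =
      fun τ => F (δ • τ) * discriminant τ ^ m := by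
  funext τ
  have hd : denom δ τ ^ ((12 : ℤ) * m) ≠ 0 := zpow_ne_zero _ (denom_ne_zero _ _)
  rw [SL_slash_apply, disc_slash, zpow_neg]
  field_simp

theorem dia_of_conj [NeZero M] [Γ.FiniteIndex]
    (hconj : ∀ (k : ℤ) (f : CuspForm (Γ : Subgroup (GL (Fin 2) ℝ)) k) (σ : ℂ →+* ℂ),
      ∃ f' : CuspForm (Γ : Subgroup (GL (Fin 2) ℝ)) k,
        qExpansion 1 f' = (qExpansion 1 f).map σ)
    (σ : ℂ →+* ℂ) (u : (ZMod M)ˣ) (F F' : ℍ → ℂ) (G D : LaurentSeries ℂ)
    (hF : IsMF (RingHom.id ℂ) Γ 1 F G) (hF' : IsMF (RingHom.id ℂ) Γ 1 F' (coeffMap σ G))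
    (hD : LExp 1 (fun τ => F (diaMat M u • τ)) D) :
    LExp 1 (fun τ => F' (diaMat M u • τ)) (coeffMap σ D) := by
  obtain ⟨m₁, h₁⟩ := exists_common hF
  obtain ⟨m₂, h₂⟩ := exists_common hF'
  set m := max m₁ m₂ with hm
  have c₁ := h₁ m (le_max_left _ _)
  have c₂ := h₂ m (le_max_right _ _)
  set f := cuspOf c₁ with hf
  set f' := cuspOf c₂ with hf'
  have ef : (f : ℍ → ℂ) = fun τ => F τ * discriminant τ ^ (m + 1) := by
    rw [hf, coe_cuspOf]
    funext τ
    simp only [Pi.mul_apply, pow_succ, mul_assoc]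
  have ef' : (f' : ℍ → ℂ) = fun τ => F' τ * discriminant τ ^ (m + 1) := by
    rw [hf', coe_cuspOf]
    funext τ
    simp only [Pi.mul_apply, pow_succ, mul_assoc]
  have l₁ : LExp 1 f (G * deltaC ℂ ^ (m + 1)) := by
    rw [ef]
    have := hF.lexp
    rw [coeffMap_id, Nat.cast_one] at this
    exact this.mul (lexp_discriminant'.pow (m + 1))
  have l₂ : LExp 1 f' (coeffMap σ (G * deltaC ℂ ^ (m + 1))) := by
    rw [ef', map_mul, map_pow, coeffMap_deltaC]
    have := hF'.lexp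
    rw [coeffMap_id, Nat.cast_one] at this
    exact this.mul (lexp_discriminant'.pow (m + 1))
  have e₁ := (lexp_cusp M f).unique one_pos l₁
  have e₂ := (lexp_cusp M f').unique one_pos l₂
  have e₃ : qExpansion 1 f' = (qExpansion 1 f).map σ := by
    rw [← e₁, X0Emb.coeffMap_ofPowerSeries] at e₂
    exact HahnSeries.ofPowerSeries_injective e₂
  have e₄ := dCusp_sigma hconj σ u f f' e₃
  have hk : (12 * (m : ℤ) + 12) = 12 * ((m + 1 : ℕ) : ℤ) := by push_cast; ring
  have d₁ : (dCusp M Γ _ u f : ℍ → ℂ) =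
      fun τ => F (diaMat M u • τ) * discriminant τ ^ (m + 1) := by
    rw [coe_dCusp, ef, hk, one_slash_smul]
  have d₂ : (dCusp M Γ _ u f' : ℍ → ℂ) =
      fun τ => F' (diaMat M u • τ) * discriminant τ ^ (m + 1) := by
    rw [coe_dCusp, ef', hk, one_slash_smul]
  have l₃ : LExp 1 (dCusp M Γ _ u f) (D * deltaC ℂ ^ (m + 1)) := by
    rw [d₁]
    exact hD.mul (lexp_discriminant'.pow (m + 1))
  have e₅ := (lexp_cusp M (dCusp M Γ _ u f)).unique one_pos l₃
  have l₄ := lexp_cusp M (dCusp M Γ _ u f')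
  rw [e₄, ← X0Emb.coeffMap_ofPowerSeries, e₅, map_mul, map_pow, coeffMap_deltaC] at l₄
  have l₅ := l₄.mul (lexp_discriminant_inv.pow (m + 1))
  rw [mul_assoc, ← mul_pow, deltaC_mul_deltaInvC, one_pow, mul_one, d₂] at l₅
  have e₆ : (fun τ => F' (diaMat M u • τ) * discriminant τ ^ (m + 1)) *
      (fun τ => (discriminant τ)⁻¹) ^ (m + 1) = fun τ => F' (diaMat M u • τ) := by
    funext τ
    simp only [Pi.mul_apply, Pi.pow_apply]
    rw [mul_assoc, ← mul_pow, mul_inv_cancel₀ (discriminant_ne_zero τ), one_pow, mul_one]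
  rw [e₆] at l₅
  exact l₅

theorem hconj_Gamma1 (M : ℕ) [NeZero M] (k : ℤ)
    (f : CuspForm (Gamma1 M : Subgroup (GL (Fin 2) ℝ)) k) (σ : ℂ →+* ℂ) :
    ∃ f' : CuspForm (Gamma1 M : Subgroup (GL (Fin 2) ℝ)) k,
        qExpansion 1 f' = (qExpansion 1 f).map σ :=
  IntGamma.exists_sigma_cusp (IntGamma.good_Gamma1 M) σ f

/-- The automorphisms of `ℂ` commute with the diamond operators. -/
instance diaGroup_of_between (M : ℕ) [NeZero M] (Γ : Subgroup SL(2, ℤ)) [hΓ : Between M Γ] :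
    DiaGroup M Γ where
  dia σ u F F' G D hF hF' hD := dia_of_conj (M := M) (Γ := Gamma1 M) (hconj_Gamma1 M)
    (σ : ℂ →+* ℂ) u F F' G D (hF.mono hΓ.ge) (hF'.mono hΓ.ge) hD

omit hΓ in
theorem CharForm.mono_one {Γ' : Subgroup SL(2, ℤ)} (h : Γ' ≤ Γ) {k : ℤ} {f : ℍ → ℂ}
    (hf : CharForm Γ 1 k f) : CharForm Γ' 1 k f where
  holo := hf.holo
  slash γ := by
    have := hf.slash ⟨γ, h γ.2⟩
    simpa using this
  bdd := hf.bdd

theorem finiteIndex_of_between (M : ℕ) [NeZero M] (Γ : Subgroup SL(2, ℤ)) [hΓ : Between M Γ] :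
    Γ.FiniteIndex := Subgroup.finiteIndex_of_le hΓ.ge

/-- The automorphisms of `ℂ` act on the forms for `Γ`. -/
theorem conjStable_of_between (M : ℕ) [NeZero M] (Γ : Subgroup SL(2, ℤ)) [hΓ : Between M Γ]
    (σ : ℂ →+* ℂ) : ConjStable Γ σ := by
  have hfin := finiteIndex_of_between M Γ
  intro k f
  have hf := CharForm.ofMF f
  have hf1 := CharForm.mono_one hΓ.ge hf
  obtain ⟨f', hf'⟩ := IntGamma.exists_sigma_mod (IntGamma.good_Gamma1 M) σ hf1.toMF
  have hf'1 := CharForm.ofMF f'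
  set g := cuspOf hf1 with hg
  set g' := cuspOf hf'1 with hg'
  -- expansions
  have hlf : ∀ {h : ℍ → ℂ}, CharForm (Gamma1 M) 1 k h →
      LExp 1 h (HahnSeries.ofPowerSeries ℤ ℂ (qExpansion 1 h)) := fun {h} hh => by
    have hm := hh.mem_qAlg (hTΓ := T_mem (M := M) (Gamma1 M)) rfl
    refine LExp.of_hasSum fun τ => ?_
    have := UpperHalfPlane.hasSum_qExpansion (h := 1) one_pos (by simpa using hm.1)
      hm.2.1 hm.2.2 τ
    simpa using this
  have e₁ := (lexp_cusp M g).unique one_pos ((hlf hf1).mul lexp_discriminant')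
  have e₂ := (lexp_cusp M g').unique one_pos ((hlf hf'1).mul lexp_discriminant')
  have e₃ : qExpansion 1 g' = (qExpansion 1 g).map σ := by
    apply HahnSeries.ofPowerSeries_injective (Γ := ℤ)
    rw [← X0Emb.coeffMap_ofPowerSeries, e₁, e₂, map_mul, coeffMap_deltaC,
      X0Emb.coeffMap_ofPowerSeries, hf']
    rfl
  have hslash : ∀ γ ∈ Γ, (f' : ℍ → ℂ) ∣[k] γ = f' := by
    intro γ hγ
    have hγ0 : γ ∈ Gamma0 M := hΓ.le hγ
    have hu : IsUnit ((γ 1 1 : ℤ) : ZMod M) :=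
      IsUnit.of_mul_eq_one _ (by rw [mul_comm]; exact gamma0_00_mul_11 hγ0)
    obtain ⟨u, hu⟩ := hu
    have e₄ := dCusp_sigma (hconj_Gamma1 M) σ u g g' e₃
    have e₅ : dCusp M (Gamma1 M) _ u g = g := by
      refine DFunLike.coe_injective ?_
      rw [coe_dCusp, ← slash_eq_dia (inv_gamma1 (Gamma1 M) _ g) γ hγ0 u hu.symm, hg, coe_cuspOf]
      have h1 : ((f : ℍ → ℂ) * discriminant) ∣[(k + 12 : ℤ)] γ =
        ((f : ℍ → ℂ) ∣[k] γ) * (discriminant ∣[(12 : ℤ)] γ) := mul_slash_SL2 k 12 γ f discriminant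
      have h2 := hf.slash ⟨γ, hγ⟩
      rw [MonoidHom.one_apply, Units.val_one, one_smul] at h2
      have h3 : (f : ℍ → ℂ) ∣[k] γ = f := h2
      rw [discriminant_slash, h3] at h1
      exact h1
    rw [e₅, ← e₃] at e₄
    have e₆ : dCusp M (Gamma1 M) _ u g' = g' := by
      refine DFunLike.coe_injective ?_
      refine (lexp_cusp M _).funext ?_
      rw [e₄]
      exact lexp_cusp M _
    have e₇ : (dCusp M (Gamma1 M) _ u g' : ℍ → ℂ) = g' := by rw [e₆]
    rw [coe_dCusp, ← slash_eq_dia (inv_gamma1 (Gamma1 M) _ g') γ hγ0 u hu.symm, hg',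
      coe_cuspOf] at e₇
    have h1 : ((f' : ℍ → ℂ) * discriminant) ∣[(k + 12 : ℤ)] γ =
        ((f' : ℍ → ℂ) ∣[k] γ) * (discriminant ∣[(12 : ℤ)] γ) :=
      mul_slash_SL2 k 12 γ f' discriminant
    rw [discriminant_slash] at h1
    funext τ
    have h2 := congrFun (h1.symm.trans e₇) τ
    simp only [Pi.mul_apply] at h2
    exact mul_right_cancel₀ (discriminant_ne_zero τ) h2
  have hfin' : CharForm Γ 1 k f' :=
    { holo := hf'1.holo
      slash := fun γ => by
        rw [MonoidHom.one_apply, Units.val_one, one_smul]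
        exact hslash γ γ.2
      bdd := hf'1.bdd }
  exact ⟨hfin'.toMF, hf'⟩

theorem goodGroup_of_between (M : ℕ) [NeZero M] (Γ : Subgroup SL(2, ℤ)) [hΓ : Between M Γ] :
    GoodGroup Γ where
  fin := finiteIndex_of_between M Γ
  T_mem := T_mem (M := M) Γ
  conj _ := conjStable_of_between M Γ _

theorem qExpansion_mem_intSpan (M : ℕ) [NeZero M] (k : ℤ)
    (g : ModularForm (Gamma1 M : Subgroup (GL (Fin 2) ℝ)) k) : qExpansion 1 g ∈ intSpan := by
  have h0 := (IntGamma.good_Gamma1 M).one_mem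
  have hg : g ∈ Submodule.span ℂ {f : ModularForm (Gamma1 M : Subgroup (GL (Fin 2) ℝ)) k |
      ∀ n, ∃ m : ℤ, (qExpansion 1 f).coeff n = (m : ℂ)} := by
    rw [IntGamma.span_int_mod (IntGamma.good_Gamma1 M)]
    trivial
  induction hg using Submodule.span_induction with
  | mem g hg =>
    refine mem_intSpan_of_forall_int fun n => ?_
    obtain ⟨m, hm⟩ := hg n
    exact ⟨m, hm.symm⟩
  | zero =>
    have h1 : qExpansion 1 (0 : ModularForm (Gamma1 M : Subgroup (GL (Fin 2) ℝ)) k) = 0 := by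
      ext n
      exact congrFun (map_zero (IntGamma.coeffM h0 k)) n
    rw [h1]
    exact zero_mem _
  | add a b _ _ ha hb =>
    rw [FunLike.coe_add, ModularForm.qExpansion_add one_pos h0 a b]
    exact add_mem ha hb
  | smul c a _ ha =>
    rw [FunLike.coe_smul, ModularForm.qExpansion_smul one_pos h0 c a]
    exact intSpan.smul_mem ha c

theorem intGroup_of_between (M : ℕ) [NeZero M] (Γ : Subgroup SL(2, ℤ)) [hΓ : Between M Γ] :
    IntGroup Γ where
  int m f hf := by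
    have h := qExpansion_mem_intSpan M _ (CharForm.mono_one hΓ.ge hf).toMF
    rwa [CharForm.coe_toMF] at h

instance (M : ℕ) [NeZero M] : GoodGroup (Gamma1 M) := goodGroup_of_between M _

instance (M : ℕ) [NeZero M] : IntGroup (Gamma1 M) := intGroup_of_between M _

instance (M : ℕ) [NeZero M] : IntGroup (Gamma0 M) := intGroup_of_between M _

end Fermat.Agent.X1Char
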