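import Fermat.Agent.X1Char.GalX

/-!
# Inertia and Frobenius from the injectivity of the reduction
-/

set_option autoImplicit false

open UpperHalfPlane hiding I
open ModularForm Matrix.SpecialLinearGroup Filter Asymptotics CongruenceSubgroup
open scoped MatrixGroups Manifold ModularForm Polynomial Topology

noncomputable section

namespace Fermat.Agent.X1Char

open Fermat.Agent.JLevelOne Fermat.Agent.X0Emb Fermat.Agent.ModFun ModularCurve Fermat.Agent.FG
open Fermat.Agent.EisChar Fermat.Agent.S28aux Fermat.Agent.IntStruct Fermat.Agent.HeckePar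
open Fermat.Agent.X1 Fermat.Agent.TEll Fermat.Agent.GaussVal

/-- Injectivity of the reduction on characters: if `G` has character `ψ`, `ψ ^ n = 1`, `G ^ n`
and the invariant function `H` are integral, and `G ^ n` and `H ^ n` have the same nonzero
reduction, then `ψ` is trivial. -/
def KeyFun (ι : Qbar →+* ℂ) (M : ℕ) (Γ : Subgroup SL(2, ℤ)) [Between M Γ] (n : ℕ)
    (A : ValuationSubring Qbar) : Prop :=
  ∀ (ψ : Γ →* ℂˣ), ψ ∈ xGroup M Γ n → ∀ (G H : ℍ → ℂ) (y : LaurentSeries Qbar)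
    (Y Z : LaurentSeries A), IsCF ι Γ ψ G y → incl A Y = y ^ n → IsMF ι Γ 1 H (incl A Z) →
    redS A Z ≠ 0 → redS A Y = redS A Z ^ n → ψ = 1

/-- The Galois action on `xGroup`. -/
def galX (ι : Qbar →+* ℂ) (M : ℕ) (Γ : Subgroup SL(2, ℤ)) [Between M Γ] [GoodGroup Γ]
    [DiaGroup M Γ] (n : ℕ) [NeZero n] : GQ →* MulAut (xGroup M Γ n) :=
  (autX ι M Γ n).comp toRA

section

variable {ι : Qbar →+* ℂ} {M : ℕ} {Γ : Subgroup SL(2, ℤ)} [hΓ : Between M Γ] [GoodGroup Γ]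
  [hD : DiaGroup M Γ] [IntGroup Γ] {n : ℕ} [NeZero n] {A : ValuationSubring Qbar} {p : ℕ}

omit [IntGroup Γ] in
theorem galX_apply (σ : GQ) (χ : xGroup M Γ n) : galX ι M Γ n σ χ = conjX ι (toRA σ) χ := rfl

omit [IntGroup Γ] in
/-- The Galois action on `xGroup` factors through a finite level. -/
theorem galX_finiteLevel : GaloisFactorsThroughFiniteLevel (galX ι M Γ n) := by
  obtain ⟨L, hL, h⟩ := galChar_finiteLevel (ι := ι) (Γ := Γ) (n := n)
  refine ⟨L, hL, fun σ hσ => ?_⟩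
  have h1 := h σ hσ
  ext χ : 1
  apply toCG_injective
  have h2 := DFunLike.congr_fun h1 (toCG χ)
  exact h2

omit [IntGroup Γ] in
theorem galX_dX (σ : GQ) (u : (ZMod M)ˣ) (χ : xGroup M Γ n) :
    galX ι M Γ n σ (dX M Γ n u χ) = dX M Γ n u (galX ι M Γ n σ χ) := autX_dX ι _ u χ

omit [IntGroup Γ] in
theorem galX_tX (σ : GQ) (p : ℕ) [Fact p.Prime] (χ : xGroup M Γ n) :
    galX ι M Γ n σ (tX ι M Γ n p χ) = tX ι M Γ n p (galX ι M Γ n σ χ) := autX_tX ι _ p χ

/-- **The Galois action is unramified** outside `M n`. -/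
theorem galX_inertia (hp : p.Prime) (hA : A.LiesOverPrime p) (key : KeyFun ι M Γ n A) {σ : GQ}
    (hσ : σ ∈ A.inertiaSubgroupIn ℚ) : galX ι M Γ n σ = 1 := by
  obtain ⟨τ, hτ, rfl⟩ := hσ
  ext χ : 1
  rw [MulAut.one_apply, galX_apply]
  obtain ⟨m, hm⟩ : ∃ m, n = m + 1 := Nat.exists_eq_succ_of_ne_zero (NeZero.ne n)
  obtain ⟨F, y₀, hy₀, hF₀⟩ := exists_isCFX ι χ
  obtain ⟨c, Y, hc, hY0, hY⟩ := hF₀.exists_scaled hp hA (NeZero.ne n) (xGroup_le n χ.2).1 hy₀
  have hF := hF₀.smul c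
  set y := algebraMap Qbar (LaurentSeries Qbar) c * y₀ with hydef
  have hy : y ≠ 0 := mul_ne_zero ((map_ne_zero_iff _ (algebraMap _ _).injective).mpr hc) hy₀
  obtain ⟨F', hF'⟩ := conjX_spec ι (toRA τ) χ hF
  set χ' := conjX ι (toRA τ) χ with hχ'
  have hψ : χ' * χ ^ m = 1 := by
    apply Subtype.ext
    refine key _ (χ' * χ ^ m).2 (F' * (ι c • F) ^ m) ((ι c • F) ^ n) _
      (coeffMap (actA τ) Y * Y ^ m) Y (hF'.mul (hF.pow m)) ?_ ?_ hY0 ?_
    · rw [map_mul, ← coeffMap_toRA, hY, map_pow, map_pow, hY]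
      ring
    · rw [hY]
      exact ((hF.pow n).char_congr (xGroup_le n χ.2).1).toIsMF
    · rw [map_mul, redS_actA, actK_of_inertia hτ, coeffMap_id, map_pow, hm, pow_succ']
  have hχn : χ ^ m * χ = 1 := by
    rw [← pow_succ, ← hm]
    exact Subtype.ext (xGroup_le n χ.2).1
  calc χ' = χ' * (χ ^ m * χ) := by rw [hχn, mul_one]
    _ = (χ' * χ ^ m) * χ := by rw [mul_assoc]
    _ = χ := by rw [hψ, one_mul]

omit [IntGroup Γ] hD [GoodGroup Γ] [NeZero n] in
theorem eq_of_mul_pow_pred {a b : xGroup M Γ n} {m : ℕ} (hm : n = m + 1) (h : a * b ^ m = 1) :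
    a = b := by
  have hbn : b ^ m * b = 1 := by
    rw [← pow_succ, ← hm]
    exact Subtype.ext (xGroup_le n b.2).1
  calc a = a * (b ^ m * b) := by rw [hbn, mul_one]
    _ = (a * b ^ m) * b := by rw [mul_assoc]
    _ = b := by rw [h, one_mul]

theorem redS_qExpand [NeZero p] (Y : LaurentSeries A) :
    redS A (qExpand A p Y) = qExpand (IsLocalRing.ResidueField A) p (redS A Y) :=
  ModularCurve.coeffMap_qExpand _ _ _

/-- reduction of the Galois conjugate by the inverse of Frobenius -/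
theorem actK_inv_pow [hp : Fact p.Prime] [NeZero p] [CharP (IsLocalRing.ResidueField A) p]
    {σ : GQ} (hσ : A.IsFrobeniusAt σ p) (z : LaurentSeries (IsLocalRing.ResidueField A)) :
    (coeffMap (actK (⟨σ, hσ.mem_decompositionSubgroup⟩⁻¹ : A.decompositionSubgroup ℚ)) z) ^ p =
      qExpand (IsLocalRing.ResidueField A) p z := by
  rw [← qExpand_coeffMap_frobenius]
  congr 1
  ext k
  rw [coeffMap_coeff, coeffMap_coeff, frobenius_def,
    ← actK_of_frobenius hσ (actK (⟨σ, hσ.mem_decompositionSubgroup⟩⁻¹) (z.coeff k))]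
  exact smul_inv_smul (⟨σ, hσ.mem_decompositionSubgroup⟩ : A.decompositionSubgroup ℚ) (z.coeff k)

/-- **The Eichler–Shimura relation** (first form). -/
theorem tX_eq [hp : Fact p.Prime] (hpM : ¬ p ∣ M) (hA : A.LiesOverPrime p)
    (key : KeyFun ι M Γ n A) {σ : GQ} (hσ : A.IsFrobeniusAt σ p) (χ : xGroup M Γ n) :
    tX ι M Γ n p χ = galX ι M Γ n σ χ * (galX ι M Γ n σ⁻¹ (dX M Γ n (pUnit M p) χ)) ^ p := by
  have hp0 : NeZero p := ⟨hp.out.ne_zero⟩
  have hcp := charP_residue hp.out hA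
  obtain ⟨m, hm⟩ : ∃ m, n = m + 1 := Nat.exists_eq_succ_of_ne_zero (NeZero.ne n)
  -- the functions
  obtain ⟨F₀, y₀, hy₀, hF₀⟩ := exists_isCFX ι χ
  obtain ⟨c, Y, hc, hY0, hY⟩ := hF₀.exists_scaled hp.out hA (NeZero.ne n) (xGroup_le n χ.2).1 hy₀
  have hF := hF₀.smul c
  set F := ι c • F₀ with hFdef
  set y := algebraMap Qbar (LaurentSeries Qbar) c * y₀ with hydef
  have hy : y ≠ 0 := mul_ne_zero ((map_ne_zero_iff _ (algebraMap _ _).injective).mpr hc) hy₀
  obtain ⟨z₀, hz₀, hG₀, hT₀⟩ := exists_hecke ι χ.2 p hpM hy hF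
  obtain ⟨d, Z, hd, hZ0, hZ⟩ := hG₀.exists_scaled hp.out hA (NeZero.ne n)
    (mem_xGroup.mp χ.2 (pUnit M p)).1 hz₀
  have hG := hG₀.smul d
  set z := algebraMap Qbar (LaurentSeries Qbar) d * z₀ with hzdef
  -- the Hecke operator
  have hT := hT₀.smul d
  set TF := (fun τ => F (diaMat M (pUnit M p) • aff p 0 1 τ) * ∏ b : Fin p, F (aff 1 b p τ))
    with hTF
  have hqz : algebraMap Qbar (LaurentSeries Qbar) d * (qExpand Qbar p z₀ * secNorm Qbar p y) =
      qExpand Qbar p z * secNorm Qbar p y := by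
    have hC : qExpand Qbar p (algebraMap Qbar (LaurentSeries Qbar) d) =
        algebraMap Qbar (LaurentSeries Qbar) d := by
      rw [algebraMap_laurentSeries_eq_single, qExpand_single, mul_zero]
    rw [hzdef, map_mul (qExpand Qbar p), hC, mul_assoc]
  rw [hqz] at hT
  -- the conjugates
  set s : A.decompositionSubgroup ℚ := ⟨σ, hσ.mem_decompositionSubgroup⟩ with hs
  obtain ⟨F', hF'⟩ := conjX_spec ι (toRA σ) χ hF
  obtain ⟨G', hG'⟩ := conjX_spec ι (toRA σ⁻¹) (dX M Γ n (pUnit M p) χ) hG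
  rw [← galX_apply] at hF' hG'
  set χ₁ := galX ι M Γ n σ χ with hχ₁
  set χ₂ := galX ι M Γ n σ⁻¹ (dX M Γ n (pUnit M p) χ) with hχ₂
  set χ₃ := χ₁ * χ₂ ^ p with hχ₃
  have hF₂ := hF'.mul (hG'.pow p)
  set F₂ := F' * G' ^ p with hF₂def
  have e1 : coeffMap ((toRA σ : Qbar ≃+* Qbar) : Qbar →+* Qbar) (incl A Y) =
      incl A (coeffMap (actA s) Y) := coeffMap_toRA s Y
  have e2 : coeffMap ((toRA σ⁻¹ : Qbar ≃+* Qbar) : Qbar →+* Qbar) (incl A Z) =
      incl A (coeffMap (actA s⁻¹) Z) := coeffMap_toRA s⁻¹ Z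
  set y₂ := coeffMap ((toRA σ : Qbar ≃+* Qbar) : Qbar →+* Qbar) y *
      (coeffMap ((toRA σ⁻¹ : Qbar ≃+* Qbar) : Qbar →+* Qbar) z) ^ p with hy₂
  set Y₂ : LaurentSeries A := coeffMap (actA s) Y * (coeffMap (actA s⁻¹) Z) ^ p with hY₂
  have hinc₂ : incl A Y₂ = y₂ ^ n := by
    rw [hY₂, map_mul, map_pow, ← e1, ← e2, hY, hZ, hy₂, map_pow, map_pow]
    ring
  have hfrob : ∀ W : LaurentSeries (IsLocalRing.ResidueField A), coeffMap (actK s) W =
      coeffMap (frobenius _ p) W := by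
    intro W
    ext k
    rw [coeffMap_coeff, coeffMap_coeff, frobenius_def]
    exact actK_of_frobenius hσ _
  have hred₂ : redS A Y₂ = redS A (qExpand A p Z * secNorm A p Y) := by
    rw [hY₂, map_mul, map_mul, map_pow, redS_actA, redS_actA, hfrob, hs, actK_inv_pow hσ,
      redS_qExpand, coeffMap_secNorm, secNorm_charP, mul_comm]
  have hred₂0 : redS A Y₂ ≠ 0 := by
    rw [hred₂, map_mul, redS_qExpand, coeffMap_secNorm]
    exact mul_ne_zero (qExpand_ne_zero' hZ0) (secNorm_ne_zero' hY0)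
  refine eq_of_mul_pow_pred hm ?_
  apply Subtype.ext
  refine key _ (tX ι M Γ n p χ * χ₃ ^ m).2 _ (F₂ ^ n) _
    ((qExpand A p Z * secNorm A p Y) * Y₂ ^ m) Y₂ (hT.mul (hF₂.pow m)) ?_ ?_ hred₂0 ?_
  · rw [map_mul, map_mul, map_pow, hinc₂, coeffMap_secNorm, ModularCurve.coeffMap_qExpand]
    have e3 : coeffMap A.subtype Y = y ^ n := hY
    have e4 : coeffMap A.subtype Z = z ^ n := hZ
    rw [e3, e4, map_pow, map_pow]
    ring
  · rw [hinc₂]
    exact ((hF₂.pow n).char_congr (xGroup_le n χ₃.2).1).toIsMF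
  · rw [map_mul, map_pow, ← hred₂, hm, pow_succ']

/-- **The Eichler–Shimura relation**: `σ² - T_p σ + p ⟨p⟩ = 0` (written multiplicatively). -/
theorem galX_frobenius [hp : Fact p.Prime] (hpM : ¬ p ∣ M) (hA : A.LiesOverPrime p)
    (key : KeyFun ι M Γ n A) {σ : GQ} (hσ : A.IsFrobeniusAt σ p) (χ : xGroup M Γ n) :
    galX ι M Γ n σ (galX ι M Γ n σ χ) * (dX M Γ n (pUnit M p) χ) ^ p =
      tX ι M Γ n p (galX ι M Γ n σ χ) := by
  rw [tX_eq hpM hA key hσ, ← galX_dX]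
  congr 2
  rw [← MulAut.mul_apply, ← map_mul, inv_mul_cancel, map_one, MulAut.one_apply]

end

end Fermat.Agent.X1Char
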