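import Fermat.Agent.X1Char.Hecke
import Fermat.Agent.GaussVal.Basic
import Fermat.Agent.IntStruct.BddDenom
import Fermat.Prelude.Def_EllipticCurve_FrobeniusTrace
import Fermat.Prelude.Def_FLTPrelim_Ramification

/-!
# Reduction of expansions
-/

set_option autoImplicit false

open UpperHalfPlane hiding I
open ModularForm Matrix.SpecialLinearGroup Filter Asymptotics CongruenceSubgroup
open scoped MatrixGroups Manifold ModularForm Polynomial Topology

noncomputable section

namespace Fermat.Agent.X1Char

open Fermat.Agent.JLevelOne Fermat.Agent.X0Emb Fermat.Agent.ModFun ModularCurve Fermat.Agent.FG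
open Fermat.Agent.EisChar Fermat.Agent.S28aux Fermat.Agent.IntStruct Fermat.Agent.HeckePar
open Fermat.Agent.X1 Fermat.Agent.TEll Fermat.Agent.GaussVal

/-- The modular forms for `Γ` are linear combinations of forms with integral expansions
(weaker form: the expansions are linear combinations of integral power series). -/
class IntGroup (Γ : Subgroup SL(2, ℤ)) : Prop where
  int : ∀ (m : ℕ) (f : ℍ → ℂ), CharForm Γ 1 (12 * m) f → qExpansion 1 f ∈ intSpan

section Span

variable {K : Type*} [Field K] (ι : K →+* ℂ)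

/-- A power series over `K` whose image in `ℂ⟦X⟧` is a linear combination of integral series is a
`K`-linear combination of integral series. -/
theorem ofPowerSeries_mem_intAlg {P : PowerSeries K} (hP : P.map ι ∈ intSpan) :
    HahnSeries.ofPowerSeries ℤ K P ∈ intAlg K := by
  algebraize [ι]
  -- a `K`-linear projection
  obtain ⟨π, hπ⟩ := (Algebra.linearMap K ℂ).exists_leftInverse_of_injective
    (LinearMap.ker_eq_bot.mpr (algebraMap K ℂ).injective)
  have hπ1 : ∀ x : K, π (ι x) = x := fun x => LinearMap.congr_fun hπ x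
  have hmem : P.map ι ∈ Submodule.span ℂ ((intMap ℂ).range : Set (PowerSeries ℂ)) := by
    rw [← toSubmodule_intSpan]
    exact hP
  -- apply the projection coefficientwise
  have key : ∀ Q ∈ Submodule.span ℂ ((intMap ℂ).range : Set (PowerSeries ℂ)), ∀ c : ℂ,
      HahnSeries.ofPowerSeries ℤ K (PowerSeries.mk fun n => π (c * PowerSeries.coeff n Q)) ∈
        intAlg K := by
    intro Q hQ
    induction hQ using Submodule.span_induction with
    | mem Q hQ =>
      intro c
      obtain ⟨G, rfl⟩ := hQ
      have h1 : (PowerSeries.mk fun n => π (c * PowerSeries.coeff n (intMap ℂ G))) =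
          PowerSeries.C (π c) * G.map (Int.castRingHom K) := by
        ext n
        rw [PowerSeries.coeff_mk, PowerSeries.coeff_C_mul, PowerSeries.coeff_map,
          PowerSeries.coeff_map]
        simp only [eq_intCast]
        rw [show c * ((PowerSeries.coeff n G : ℤ) : ℂ) = (PowerSeries.coeff n G : ℤ) • c by
          rw [zsmul_eq_mul, mul_comm], map_zsmul, zsmul_eq_mul, mul_comm]
      rw [h1, map_mul, ← X0Emb.coeffMap_ofPowerSeries, HahnSeries.ofPowerSeries_C]
      refine mul_mem ?_ (Algebra.subset_adjoin ⟨_, rfl⟩)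
      have h2 : HahnSeries.C (π c) = algebraMap K (LaurentSeries K) (π c) := by
        rw [algebraMap_laurentSeries_eq_single]; rfl
      rw [h2]
      exact Subalgebra.algebraMap_mem _ _
    | zero =>
      intro c
      have h1 : (PowerSeries.mk fun n => π (c * PowerSeries.coeff n (0 : PowerSeries ℂ))) = 0 := by
        ext n; simp
      rw [h1, map_zero]
      exact zero_mem _
    | add Q R _ _ hQ hR =>
      intro c
      have h1 : (PowerSeries.mk fun n => π (c * PowerSeries.coeff n (Q + R))) =
          (PowerSeries.mk fun n => π (c * PowerSeries.coeff n Q)) +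
          (PowerSeries.mk fun n => π (c * PowerSeries.coeff n R)) := by
        ext n; simp [mul_add]
      rw [h1, map_add]
      exact add_mem (hQ c) (hR c)
    | smul a Q hQ ih =>
      intro c
      have h1 := ih (c * a)
      simp only [mul_assoc] at h1
      simpa using h1
  have h := key _ hmem 1
  have h2 : (PowerSeries.mk fun n => π (1 * PowerSeries.coeff n (P.map ι))) = P := by
    ext n
    rw [PowerSeries.coeff_mk, PowerSeries.coeff_map, one_mul, hπ1]
  rwa [h2] at h

end Span

section Scal

variable {K : Type*} [Field K] {ι : K →+* ℂ} {Γ : Subgroup SL(2, ℤ)}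
  {F : ℍ → ℂ} {y : LaurentSeries K} {χ : Γ →* ℂˣ}

/-- The expansions of modular functions are linear combinations of integral expansions. -/
theorem mem_intAlg_of_isMF [GoodGroup Γ] [IntGroup Γ] (hF : IsMF ι Γ 1 F y) : y ∈ intAlg K := by
  obtain ⟨m, hm⟩ := (IsCF.ofIsMF hF).exists_charForm
  set f : ℍ → ℂ := fun τ => F τ * discriminant τ ^ m with hf
  have hlf : LExp 1 f (coeffMap ι (y * deltaC K ^ m)) := by
    rw [map_mul, map_pow, coeffMap_deltaC]
    have := hF.lexp
    rw [Nat.cast_one] at this
    exact this.mul (lexp_discriminant'.pow m)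
  obtain ⟨P, hP, hqP⟩ := exists_powerSeries
    (hm.mem_qAlg (hTΓ := GoodGroup.T_mem (Γ := Γ)) rfl) hlf
  have h1 : P.map ι ∈ intSpan := by
    rw [← hqP]
    exact IntGroup.int m f hm
  have h2 := ofPowerSeries_mem_intAlg ι h1
  have h3 : y = HahnSeries.ofPowerSeries ℤ K P * deltaInvC K ^ m := by
    rw [← hP, mul_assoc, ← mul_pow, deltaC_mul_deltaInvC, one_pow, mul_one]
  rw [h3]
  refine mul_mem h2 (pow_mem ?_ m)
  rw [← coeffMap_deltaInvC (Int.castRingHom K)]
  exact Algebra.subset_adjoin ⟨_, rfl⟩

variable {A : ValuationSubring Qbar} {p n : ℕ}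

/-- Scaling a function with character so that its `n`-th power is integral and primitive. -/
theorem IsCF.exists_scaled {ι : Qbar →+* ℂ} {y : LaurentSeries Qbar} [GoodGroup Γ] [IntGroup Γ]
    (hp : p.Prime) (hA : A.LiesOverPrime p) (hn : n ≠ 0)
    (hF : IsCF ι Γ χ F y) (hχ : χ ^ n = 1) (hy : y ≠ 0) :
    ∃ (c : Qbar) (Y : LaurentSeries A), c ≠ 0 ∧ redS A Y ≠ 0 ∧
      incl A Y = (algebraMap Qbar (LaurentSeries Qbar) c * y) ^ n := by
  have hFn : IsMF ι Γ 1 (F ^ n) (y ^ n) := ((hF.pow n).char_congr hχ).toIsMF
  have := isAlgebraic_Qbar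
  have hsc : Scalable A (y ^ n) :=
    scalable_of_mem_intAlg hp hA (mem_intAlg_of_isMF hFn) (pow_ne_zero n hy)
  obtain ⟨c, Y, n₀, hc, hcY, hY, -, -⟩ := hsc.exists_primitive
  obtain ⟨d, hd⟩ := IsAlgClosed.exists_pow_nat_eq c⁻¹ (Nat.pos_of_ne_zero hn)
  refine ⟨d, Y, ?_, hY, ?_⟩
  · rintro rfl
    rw [zero_pow hn] at hd
    exact inv_ne_zero hc hd.symm
  · rw [mul_pow, ← hcY, ← mul_assoc, ← map_pow, hd, ← map_mul, inv_mul_cancel₀ hc, map_one, one_mul]

end Scal

/-! ### Galois action -/

section Galois

variable {A : ValuationSubring Qbar} {p : ℕ}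

/-- The action of the decomposition group on `A`. -/
def actA (σ : A.decompositionSubgroup ℚ) : A →+* A := MulSemiringAction.toRingHom _ A σ

/-- The action of the decomposition group on the residue field. -/
def actK (σ : A.decompositionSubgroup ℚ) :
    IsLocalRing.ResidueField A →+* IsLocalRing.ResidueField A :=
  MulSemiringAction.toRingHom _ (IsLocalRing.ResidueField A) σ

theorem coeffMap_toRA (σ : A.decompositionSubgroup ℚ) (Y : LaurentSeries A) :
    coeffMap ((toRA (σ : GQ) : Qbar ≃+* Qbar) : Qbar →+* Qbar) (incl A Y) =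
      incl A (coeffMap (actA σ) Y) := by
  ext k
  simp only [coeffMap_coeff]
  rfl

theorem redS_actA (σ : A.decompositionSubgroup ℚ) (Y : LaurentSeries A) :
    redS A (coeffMap (actA σ) Y) = coeffMap (actK σ) (redS A Y) := by
  ext k
  simp only [coeffMap_coeff]
  rfl

theorem actK_of_inertia {σ : A.decompositionSubgroup ℚ}
    (hσ : σ ∈ A.inertiaSubgroup ℚ) : actK σ = RingHom.id _ := by
  ext x
  have h : (MulSemiringAction.toRingAut (A.decompositionSubgroup ℚ) (IsLocalRing.ResidueField A))
    σ = 1 := hσ
  exact congrArg (fun e : RingAut (IsLocalRing.ResidueField A) => e x) h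

theorem actK_of_frobenius {σ : GQ} (hσ : A.IsFrobeniusAt σ p)
    (x : IsLocalRing.ResidueField A) :
    actK ⟨σ, hσ.mem_decompositionSubgroup⟩ x = x ^ p :=
  hσ.smul_residue_eq x

theorem charP_residue (hp : p.Prime) (hA : A.LiesOverPrime p) :
    CharP (IsLocalRing.ResidueField A) p := by
  have h0 : ((p : ℕ) : IsLocalRing.ResidueField A) = 0 := by
    have h1 : IsLocalRing.residue A (p : A) = 0 := by
      rw [IsLocalRing.residue_eq_zero_iff]
      rw [ValuationSubring.LiesOverPrime, ValuationSubring.mem_nonunits_iff] at hA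
      refine (A.valuation_lt_one_iff _).mpr ?_
      simpa using hA
    simpa using h1
  obtain ⟨q, hq⟩ := CharP.exists (IsLocalRing.ResidueField A)
  have h2 := (CharP.cast_eq_zero_iff (IsLocalRing.ResidueField A) q p).mp h0
  rcases (Nat.dvd_prime hp).mp h2 with h3 | h3
  · subst h3
    exact absurd (CharP.cast_eq_zero (IsLocalRing.ResidueField A) 1)
      (by rw [Nat.cast_one]; exact one_ne_zero)
  · rwa [← h3]

end Galois

end Fermat.Agent.X1Char
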