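import Fermat.Agent.X1Char.Dia

/-!
# The group of characters stable under all operators
-/

set_option autoImplicit false

open UpperHalfPlane hiding I
open ModularForm Matrix.SpecialLinearGroup Filter Asymptotics CongruenceSubgroup
open scoped MatrixGroups Manifold ModularForm Polynomial Topology

noncomputable section

namespace Fermat.Agent.X1Char

open Fermat.Agent.JLevelOne Fermat.Agent.X0Emb Fermat.Agent.ModFun ModularCurve Fermat.Agent.FG
open Fermat.Agent.EisChar Fermat.Agent.S28aux Fermat.Agent.IntStruct Fermat.Agent.HeckePar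
open Fermat.Agent.X1

/-- Characters of functions are determined by powers of the functions. -/
theorem char_eq_of_pow_eq {Γ : Subgroup SL(2, ℤ)} {χ ψ : Γ →* ℂˣ} {F G : ℍ → ℂ} (hF : MDiff F)
    (hG : MDiff G) {n : ℕ} (hn : n ≠ 0) (h : F ^ n = G ^ n) (hF0 : F ≠ 0)
    (hχ : ∀ (γ : Γ) (τ : ℍ), F ((γ : SL(2, ℤ)) • τ) = (χ γ : ℂ) * F τ)
    (hψ : ∀ (γ : Γ) (τ : ℍ), G ((γ : SL(2, ℤ)) • τ) = (ψ γ : ℂ) * G τ) : χ = ψ := by
  obtain ⟨c, hc, hFG⟩ := exists_smul_eq_of_pow_eq hF hG hn h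
  obtain ⟨τ, hτ⟩ := Function.ne_iff.mp hF0
  ext γ
  have h1 := hχ γ τ
  have h2 := hψ γ τ
  have h3 : ∀ τ, F τ = c * G τ := fun τ => by rw [hFG]; rfl
  rw [h3, h2, h3 τ] at h1
  have h4 : c * G τ ≠ 0 := by rw [← h3]; exact hτ
  refine mul_right_cancel₀ h4 ?_
  rw [← h1]
  ring

variable {M : ℕ} {Γ : Subgroup SL(2, ℤ)} [hΓ : Between M Γ]

variable (M Γ) in
/-- The group of characters `χ` with `χ ^ n = 1` all of whose diamond conjugates are trivial on
the stabiliser of `∞`. -/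
def xGroup (n : ℕ) : Subgroup (Γ →* ℂˣ) :=
  ⨅ u : (ZMod M)ˣ, (charGroup Γ n).comap (dChar M Γ u)

theorem mem_xGroup {n : ℕ} {χ : Γ →* ℂˣ} :
    χ ∈ xGroup M Γ n ↔ ∀ u : (ZMod M)ˣ, dChar M Γ u χ ∈ charGroup Γ n := by
  simp [xGroup, Subgroup.mem_iInf]

theorem xGroup_le (n : ℕ) : xGroup M Γ n ≤ charGroup Γ n := fun χ hχ => by
  have := mem_xGroup.mp hχ 1
  rwa [dChar_one] at this

theorem dChar_mem_xGroup {n : ℕ} {χ : Γ →* ℂˣ} (hχ : χ ∈ xGroup M Γ n) (u : (ZMod M)ˣ) :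
    dChar M Γ u χ ∈ xGroup M Γ n := by
  rw [mem_xGroup] at hχ ⊢
  intro v
  rw [← dChar_mul]
  exact hχ _

instance finite_xGroup [Γ.FiniteIndex] (n : ℕ) [NeZero n] : Finite (xGroup M Γ n) :=
  Finite.of_injective (Subgroup.inclusion (xGroup_le n)) (Subgroup.inclusion_injective _)

/-- the pair of an element of `xGroup` and its image in `charGroup` -/
def toCG {n : ℕ} (χ : xGroup M Γ n) : charGroup Γ n := ⟨χ.1, xGroup_le n χ.2⟩

section Dia

variable {K : Type} [Field K] [Countable K] [IsAlgClosed K] {ι : K →+* ℂ}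
  [GoodGroup Γ] [hD : DiaGroup M Γ] {F F' : ℍ → ℂ} {y z : LaurentSeries K} {n : ℕ} {χ : Γ →* ℂˣ}

/-- The conjugates by diamonds of functions with character. -/
theorem IsCF.exists_dia (hn : n ≠ 0) (hχ : χ ∈ xGroup M Γ n) (hF : IsCF ι Γ χ F y)
    (u : (ZMod M)ˣ) :
    ∃ z : LaurentSeries K, IsCF ι Γ (dChar M Γ u χ) (fun τ => F (diaMat M u • τ)) z := by
  have hinv := fun γ τ => dia_char (M := M) (u := u) hF.char γ τ
  have hm := mdiff_comp_smul hF.mdiff (diaMat M u)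
  have hg := smul_growth hF.growth (diaMat M u)
  have hcg := mem_xGroup.mp hχ u
  obtain ⟨D, hDexp⟩ := exists_lexp (h := 1) hm (fun τ => by
    have h1 := hinv ⟨_, GoodGroup.T_mem (Γ := Γ)⟩ τ
    rw [hcg.2 _ (by simp [ModularGroup.T])] at h1
    simp only [UpperHalfPlane.modular_T_smul, Units.val_one, one_mul] at h1
    simpa using h1) (by
    have h1 : GrowthInf (fun τ => F (diaMat M u • ((1 : SL(2, ℤ)) • τ))) := hg 1
    simpa only [one_smul] using h1)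
  rw [Nat.cast_one] at hDexp
  -- the `n`-th power
  have hFn : IsMF ι Γ 1 (F ^ n) (y ^ n) :=
    ((hF.pow n).char_congr (xGroup_le n hχ).1).toIsMF
  obtain ⟨w, hw⟩ := mf_exists_dia (M := M) hFn u
  have h1 : LExp 1 (fun τ => (F ^ n) (diaMat M u • τ)) (D ^ n) := hDexp.pow n
  have h2 := h1.unique one_pos (by simpa using hw.lexp)
  have : CharZero K := (RingHom.charZero_iff ι.injective).mpr inferInstance
  obtain ⟨z, hz⟩ := exists_coeffMap_of_pow_eq ι hn h2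
  exact ⟨z, hm, hinv, hg, by rw [← hz]; exact hDexp⟩

variable (ι) in
/-- The Galois action commutes with the diamond operators. -/
theorem dChar_conjChar [NeZero n] (σ : K ≃+* K) (χ : charGroup Γ n) (hχ : χ.1 ∈ xGroup M Γ n)
    (u : (ZMod M)ˣ) :
    dChar M Γ u (conjChar ι σ χ).1 = (conjChar ι σ ⟨dChar M Γ u χ.1, mem_xGroup.mp hχ u⟩).1 := by
  obtain ⟨F, y, hy, hF, -⟩ := exists_isCF' ι χ
  obtain ⟨z, hz⟩ := hF.exists_dia (NeZero.ne n) hχ u
  obtain ⟨F', hF'⟩ := conjChar_spec ι σ χ hF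
  obtain ⟨F'', hF''⟩ := conjChar_spec ι σ ⟨dChar M Γ u χ.1, mem_xGroup.mp hχ u⟩ hz
  have hFn : IsMF ι Γ 1 (F ^ n) (y ^ n) := ((hF.pow n).char_congr χ.2.1).toIsMF
  have hFn' : IsMF ι Γ 1 (F' ^ n) (coeffMap (σ : K →+* K) (y ^ n)) := by
    rw [map_pow]
    exact ((hF'.pow n).char_congr (conjChar ι σ χ).2.1).toIsMF
  have hzn : LExp 1 (fun τ => (F ^ n) (diaMat M u • τ)) (coeffMap ι (z ^ n)) := by
    rw [map_pow]
    exact hz.lexp.pow n
  have h1 := mf_dia_conj (M := M) hFn hzn σ hFn'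
  have h2 : LExp 1 (F'' ^ n) (coeffMap ι (coeffMap (σ : K →+* K) (z ^ n))) := by
    rw [map_pow, map_pow]
    exact hF''.lexp.pow n
  have h3 : (fun τ => F' (diaMat M u • τ)) ^ n = F'' ^ n := h1.funext h2
  have hF'0 : (fun τ => F' (diaMat M u • τ)) ≠ 0 := by
    have h4 : F' ≠ 0 := fun h => hy (by
      have h5 := (IsCF.eq_zero_iff hF'.lexp).mp h
      rwa [map_eq_zero_iff _ (coeffMap_injective _)] at h5)
    obtain ⟨τ, hτ⟩ := Function.ne_iff.mp h4
    refine Function.ne_iff.mpr ⟨(diaMat M u)⁻¹ • τ, ?_⟩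
    simpa using hτ
  exact char_eq_of_pow_eq (mdiff_comp_smul hF'.mdiff _) hF''.mdiff (NeZero.ne n) h3 hF'0
    (fun γ τ => dia_char (M := M) (u := u) hF'.char γ τ) hF''.char

end Dia

end Fermat.Agent.X1Char
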