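import Fermat.Agent.X1Char.Conj
import Fermat.Prelude.Def_GaloisRep_Residual

/-!
# The group of characters and the Galois action on it
-/

set_option autoImplicit false

open UpperHalfPlane hiding I
open ModularForm Matrix.SpecialLinearGroup Filter Asymptotics
open scoped MatrixGroups Manifold ModularForm Polynomial Topology

noncomputable section

namespace Fermat.Agent.X1Char

open Fermat.Agent.JLevelOne Fermat.Agent.X0Emb Fermat.Agent.ModFun ModularCurve Fermat.Agent.FG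
open Fermat.Agent.EisChar Fermat.Agent.S28aux Fermat.Agent.IntStruct

/-- The group of characters `χ` of `Γ` with `χ ^ n = 1` which are trivial on the stabiliser of
`∞`. -/
def charGroup (Γ : Subgroup SL(2, ℤ)) (n : ℕ) : Subgroup (Γ →* ℂˣ) where
  carrier := {χ | χ ^ n = 1 ∧
    ∀ γ : Γ, ((γ : SL(2, ℤ)) : Matrix (Fin 2) (Fin 2) ℤ) 1 0 = 0 → χ γ = 1}
  one_mem' := ⟨by ext γ; simp, fun _ _ => rfl⟩
  mul_mem' := by
    rintro χ ψ ⟨h1, h2⟩ ⟨h3, h4⟩
    refine ⟨?_, fun γ hγ => by rw [MonoidHom.mul_apply, h2 γ hγ, h4 γ hγ, mul_one]⟩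
    ext γ
    have e1 := DFunLike.congr_fun h1 γ
    have e3 := DFunLike.congr_fun h3 γ
    simp only [MonoidHom.pow_apply, MonoidHom.mul_apply, MonoidHom.one_apply, mul_pow] at e1 e3 ⊢
    rw [e1, e3, mul_one]
  inv_mem' := by
    rintro χ ⟨h1, h2⟩
    refine ⟨?_, fun γ hγ => by rw [MonoidHom.inv_apply, h2 γ hγ, inv_one]⟩
    ext γ
    have e1 := DFunLike.congr_fun h1 γ
    simp only [MonoidHom.pow_apply, MonoidHom.inv_apply, MonoidHom.one_apply, inv_pow] at e1 ⊢
    rw [e1, inv_one]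

theorem mem_charGroup {Γ : Subgroup SL(2, ℤ)} {n : ℕ} {χ : Γ →* ℂˣ} :
    χ ∈ charGroup Γ n ↔ χ ^ n = 1 ∧
      ∀ γ : Γ, ((γ : SL(2, ℤ)) : Matrix (Fin 2) (Fin 2) ℤ) 1 0 = 0 → χ γ = 1 := Iff.rfl

instance finite_charGroup (Γ : Subgroup SL(2, ℤ)) [Γ.FiniteIndex] (n : ℕ) [NeZero n] :
    Finite (charGroup Γ n) := by
  have := finite_characters (Γ := Γ) (NeZero.ne n)
  exact Finite.of_injective
    (fun χ : charGroup Γ n => (⟨χ.1, χ.2.1⟩ : {χ : Γ →* ℂˣ // χ ^ n = 1}))
    fun a b h => Subtype.ext (congrArg (fun x : {χ : Γ →* ℂˣ // χ ^ n = 1} => x.1) h)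

theorem pow_eq_one_of_mem {Γ : Subgroup SL(2, ℤ)} {n : ℕ} (χ : charGroup Γ n) : χ ^ n = 1 :=
  Subtype.ext χ.2.1

section Action

variable {K : Type} [Field K] [Countable K] [IsAlgClosed K] (ι : K →+* ℂ)
  {Γ : Subgroup SL(2, ℤ)} [GoodGroup Γ] {n : ℕ} [NeZero n]

/-- existence for `χ` in the character group -/
theorem exists_isCF' (χ : charGroup Γ n) :
    ∃ (F : ℍ → ℂ) (y : LaurentSeries K), y ≠ 0 ∧ IsCF ι Γ χ.1 F y ∧
      ∀ (σ : K ≃+* K) (F' : ℍ → ℂ), IsCF ι Γ χ.1 F' (coeffMap (σ : K →+* K) y) →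
        coeffMap (σ : K →+* K) y = y :=
  exists_isCF ι (NeZero.ne n) χ.1 χ.2.1 χ.2.2

theorem exists_conjChar (σ : K ≃+* K) (χ : charGroup Γ n) : ∃ ψ : charGroup Γ n,
    ∀ (F : ℍ → ℂ) (y : LaurentSeries K), y ≠ 0 → IsCF ι Γ χ.1 F y →
      ∃ F' : ℍ → ℂ, IsCF ι Γ ψ.1 F' (coeffMap (σ : K →+* K) y) := by
  obtain ⟨F, y, hy, hF, -⟩ := exists_isCF' ι χ
  obtain ⟨χ', F', hχ', hF'⟩ := hF.exists_conj (NeZero.ne n) χ.2.1 σ
  have hinj : ∀ {z : LaurentSeries K}, z ≠ 0 → coeffMap (σ : K →+* K) z ≠ 0 := fun {z} hz => by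
    rw [Ne, map_eq_zero_iff _ (coeffMap_injective _)]
    exact hz
  refine ⟨⟨χ', hχ', hF'.eq_one_of_infty (hinj hy)⟩, fun G z hz hG => ?_⟩
  obtain ⟨χ'', G', hχ'', hG'⟩ := hG.exists_conj (NeZero.ne n) χ.2.1 σ
  have := IsCF.same_char (NeZero.ne n) σ χ.2.1 hχ' hF hG hF' hG' hy hz
  exact ⟨G', hG'.char_congr this.symm⟩

/-- The conjugate of a character. -/
def conjChar (σ : K ≃+* K) (χ : charGroup Γ n) : charGroup Γ n := (exists_conjChar ι σ χ).choose

theorem conjChar_spec (σ : K ≃+* K) (χ : charGroup Γ n) {F : ℍ → ℂ} {y : LaurentSeries K}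
    (hF : IsCF ι Γ χ.1 F y) :
    ∃ F' : ℍ → ℂ, IsCF ι Γ (conjChar ι σ χ).1 F' (coeffMap (σ : K →+* K) y) := by
  by_cases hy : y = 0
  · refine ⟨0, ?_⟩
    rw [hy, map_zero]
    exact ⟨mdifferentiable_const, fun γ τ => by simp, ModGrowth.const 0, by
      rw [map_zero]; exact LExp.zero 1⟩
  exact (exists_conjChar ι σ χ).choose_spec F y hy hF

theorem eq_conjChar (σ : K ≃+* K) (χ : charGroup Γ n) {F : ℍ → ℂ} {y : LaurentSeries K}
    (hF : IsCF ι Γ χ.1 F y) (hy : y ≠ 0) {ψ : Γ →* ℂˣ} {F' : ℍ → ℂ}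
    (hF' : IsCF ι Γ ψ F' (coeffMap (σ : K →+* K) y)) : ψ = (conjChar ι σ χ).1 := by
  obtain ⟨F'', hF''⟩ := conjChar_spec ι σ χ hF
  refine hF'.char_unique hF'' ?_
  rw [Ne, map_eq_zero_iff _ (coeffMap_injective _)]
  exact hy

theorem conjChar_one (χ : charGroup Γ n) : conjChar ι (1 : K ≃+* K) χ = χ := by
  obtain ⟨F, y, hy, hF, -⟩ := exists_isCF' ι χ
  refine Subtype.ext (eq_conjChar ι 1 χ hF hy (F' := F) ?_).symm
  have : coeffMap ((1 : K ≃+* K) : K →+* K) y = y := by
    ext k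
    rw [coeffMap_coeff]
    rfl
  rwa [this]

theorem conjChar_mul (σ τ : K ≃+* K) (χ : charGroup Γ n) :
    conjChar ι (σ * τ) χ = conjChar ι σ (conjChar ι τ χ) := by
  obtain ⟨F, y, hy, hF, -⟩ := exists_isCF' ι χ
  obtain ⟨F', hF'⟩ := conjChar_spec ι τ χ hF
  obtain ⟨F'', hF''⟩ := conjChar_spec ι σ (conjChar ι τ χ) hF'
  refine Subtype.ext (eq_conjChar ι (σ * τ) χ hF hy (F' := F'') ?_).symm
  have : coeffMap ((σ * τ : K ≃+* K) : K →+* K) y =
      coeffMap (σ : K →+* K) (coeffMap (τ : K →+* K) y) := by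
    ext k
    rw [coeffMap_coeff, coeffMap_coeff, coeffMap_coeff]
    rfl
  rwa [this]

theorem conjChar_map_mul (σ : K ≃+* K) (χ ψ : charGroup Γ n) :
    conjChar ι σ (χ * ψ) = conjChar ι σ χ * conjChar ι σ ψ := by
  obtain ⟨F, y, hy, hF, -⟩ := exists_isCF' ι χ
  obtain ⟨G, z, hz, hG, -⟩ := exists_isCF' ι ψ
  obtain ⟨F', hF'⟩ := conjChar_spec ι σ χ hF
  obtain ⟨G', hG'⟩ := conjChar_spec ι σ ψ hG
  refine Subtype.ext (eq_conjChar ι σ (χ * ψ) (hF.mul hG) (mul_ne_zero hy hz)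
    (F' := F' * G') ?_).symm
  rw [map_mul]
  exact hF'.mul hG'

variable (Γ n) in
/-- The action of the automorphisms of `K` on the group of characters. -/
def autChar : (K ≃+* K) →* MulAut (charGroup Γ n) where
  toFun σ :=
    { toFun := conjChar ι σ
      invFun := conjChar ι σ⁻¹
      left_inv := fun χ => by rw [← conjChar_mul, inv_mul_cancel, conjChar_one]
      right_inv := fun χ => by rw [← conjChar_mul, mul_inv_cancel, conjChar_one]
      map_mul' := conjChar_map_mul ι σ }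
  map_one' := by
    ext χ : 1
    exact conjChar_one ι χ
  map_mul' σ τ := by
    ext χ : 1
    exact conjChar_mul ι σ τ χ

@[simp] theorem autChar_apply (σ : K ≃+* K) (χ : charGroup Γ n) :
    autChar ι Γ n σ χ = conjChar ι σ χ := rfl

end Action

/-! ### The absolute Galois group of `ℚ` -/

section Galois

/-- The algebraic closure of `ℚ`. -/
abbrev Qbar : Type := AlgebraicClosure ℚ

/-- The absolute Galois group of `ℚ`. -/
abbrev GQ : Type := AlgebraicClosure ℚ ≃ₐ[ℚ] AlgebraicClosure ℚ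

theorem isAlgebraic_Qbar : Algebra.IsAlgebraic ℚ (AlgebraicClosure ℚ) :=
  AlgebraicClosure.isAlgebraic ℚ

theorem isAlgClosure_Qbar : IsAlgClosure ℚ (AlgebraicClosure ℚ) :=
  ⟨AlgebraicClosure.isAlgClosed ℚ, isAlgebraic_Qbar⟩

theorem isGalois_Qbar : IsGalois ℚ (AlgebraicClosure ℚ) :=
  @IsAlgClosure.isGalois ℚ _ _ _ _ isAlgClosure_Qbar _

instance countable_Qbar : Countable Qbar := by
  have := isAlgebraic_Qbar
  rw [← Cardinal.mk_le_aleph0_iff]
  refine (Algebra.IsAlgebraic.cardinalMk_le_max ℚ (AlgebraicClosure ℚ)).trans ?_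
  simp

/-- An element of the Galois group as a ring automorphism. -/
def toRA : GQ →* (Qbar ≃+* Qbar) where
  toFun σ := σ.toRingEquiv
  map_one' := rfl
  map_mul' _ _ := rfl

variable (ι : Qbar →+* ℂ) (Γ : Subgroup SL(2, ℤ)) [GoodGroup Γ] (n : ℕ) [NeZero n]

/-- The Galois action on the group of characters. -/
def galChar : GQ →* MulAut (charGroup Γ n) := (autChar ι Γ n).comp toRA

variable {Γ n}

theorem galChar_apply (σ : GQ) (χ : charGroup Γ n) :
    galChar ι Γ n σ χ = conjChar ι (toRA σ) χ := rfl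

theorem stabilizer_eq (χ : charGroup Γ n) :
    ∃ E : IntermediateField ℚ Qbar, FiniteDimensional ℚ E ∧
      ∀ σ : GQ, (∀ x ∈ E, σ x = x) → galChar ι Γ n σ χ = χ := by
  have := isGalois_Qbar
  obtain ⟨F, y, hy, hF, hself⟩ := exists_isCF' ι χ
  set E : IntermediateField ℚ Qbar := IntermediateField.adjoin ℚ (Set.range y.coeff) with hE
  have hfix : ∀ σ : GQ, (∀ x ∈ E, σ x = x) ↔
      coeffMap ((toRA σ : Qbar ≃+* Qbar) : Qbar →+* Qbar) y = y := by
    intro σ
    constructor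
    · intro h
      ext k
      rw [coeffMap_coeff]
      exact h _ (IntermediateField.subset_adjoin _ _ ⟨k, rfl⟩)
    · intro h
      have hle : E ≤ IntermediateField.fixedField (Subgroup.zpowers σ) := by
        rw [hE, IntermediateField.adjoin_le_iff]
        rintro _ ⟨k, rfl⟩
        have h1 : σ (y.coeff k) = y.coeff k := by
          have := congrArg (fun z : LaurentSeries Qbar => z.coeff k) h
          simpa [coeffMap_coeff] using! this
        rw [SetLike.mem_coe, IntermediateField.mem_fixedField_iff]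
        intro τ hτ
        obtain ⟨j, rfl⟩ := Subgroup.mem_zpowers_iff.mp hτ
        have hs : σ ∈ MulAction.stabilizer GQ (y.coeff k) := h1
        exact Subgroup.zpow_mem _ hs j
      intro x hx
      exact (IntermediateField.mem_fixedField_iff _ _).mp (hle hx) σ (Subgroup.mem_zpowers σ)
  have hstab : ∀ σ : GQ, (∀ x ∈ E, σ x = x) ↔ galChar ι Γ n σ χ = χ := by
    intro σ
    rw [hfix]
    constructor
    · intro h
      refine Subtype.ext (eq_conjChar ι (toRA σ) χ hF hy (F' := F) ?_).symm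
      rwa [h]
    · intro h
      obtain ⟨F', hF'⟩ := conjChar_spec ι (toRA σ) χ hF
      rw [← galChar_apply, h] at hF'
      exact hself _ F' hF'
  have hH : E.fixingSubgroup.FiniteIndex := by
    have hker : (galChar ι Γ n).ker ≤ E.fixingSubgroup := by
      intro σ hσ
      rw [IntermediateField.mem_fixingSubgroup_iff]
      rw [MonoidHom.mem_ker] at hσ
      exact (hstab σ).mpr (by rw [hσ]; rfl)
    have : Finite (MulAut (charGroup Γ n)) := by
      have : Finite (Equiv.Perm (charGroup Γ n)) := inferInstance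
      exact Finite.of_injective (fun e : MulAut (charGroup Γ n) => (e.toEquiv : Equiv.Perm _))
        fun a b h => MulEquiv.toEquiv_injective h
    have h1 : (galChar ι Γ n).ker.FiniteIndex := Subgroup.finiteIndex_ker _
    exact Subgroup.finiteIndex_of_le hker
  have hopen : IsOpen (E.fixingSubgroup : Set GQ) := by
    have hcl : IsClosed (E.fixingSubgroup : Set GQ) := InfiniteGalois.fixingSubgroup_isClosed E
    exact Subgroup.isOpen_of_isClosed_of_finiteIndex _ hcl
  refine ⟨E, (InfiniteGalois.isOpen_iff_finite E).mp hopen, fun σ hσ => (hstab σ).mp hσ⟩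

/-- The Galois action on the group of characters factors through a finite level. -/
theorem galChar_finiteLevel : GaloisFactorsThroughFiniteLevel (galChar ι Γ n) := by
  choose E hE hEσ using fun χ : charGroup Γ n => stabilizer_eq ι χ
  refine ⟨⨆ χ, E χ, ?_, fun σ hσ => ?_⟩
  · have : Finite (charGroup Γ n) := inferInstance
    exact IntermediateField.finiteDimensional_iSup_of_finite
  · ext χ : 1
    exact hEσ χ σ fun x hx => hσ x (le_iSup E χ hx)

end Galois

end Fermat.Agent.X1Char
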