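import Fermat.Agent.X1Char.Basic

/-!
# Galois action on characters

`K` is a countable field embedded in `ℂ` (in practice the algebraic closure of `ℚ`). The
automorphisms of `K` act on the group of characters `χ` of `Γ` with `χ ^ n = 1` that are trivial on
the stabiliser of `∞`: `σ χ` is the character of the function with the conjugate expansion.
-/

set_option autoImplicit false

open UpperHalfPlane hiding I
open ModularForm Matrix.SpecialLinearGroup Filter Asymptotics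
open scoped MatrixGroups Manifold ModularForm Polynomial Topology

noncomputable section

namespace Fermat.Agent.X1Char

open Fermat.Agent.JLevelOne Fermat.Agent.X0Emb Fermat.Agent.ModFun ModularCurve Fermat.Agent.FG
open Fermat.Agent.EisChar Fermat.Agent.S28aux Fermat.Agent.IntStruct

/-- The conditions on the group `Γ`. -/
class GoodGroup (Γ : Subgroup SL(2, ℤ)) : Prop where
  fin : Γ.FiniteIndex
  T_mem : ModularGroup.T ∈ Γ
  conj : ∀ σ : ℂ ≃+* ℂ, ConjStable Γ (σ : ℂ →+* ℂ)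

instance (priority := 100) (Γ : Subgroup SL(2, ℤ)) [h : GoodGroup Γ] : Γ.FiniteIndex := h.fin

instance (N : ℕ) [NeZero N] : GoodGroup (CongruenceSubgroup.Gamma0 N) where
  fin := inferInstance
  T_mem := T_mem_Gamma0 N
  conj _ := conjStable_Gamma0 N _

theorem exists_powerSeries {K : Type*} [Field K] {ι : K →+* ℂ} {f : ℍ → ℂ} (hf : f ∈ qAlg)
    {z : LaurentSeries K} (h : LExp 1 f (coeffMap ι z)) :
    ∃ P : PowerSeries K, z = HahnSeries.ofPowerSeries ℤ K P ∧ qExpansion 1 f = P.map ι := by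
  have h1 : LExp 1 f (HahnSeries.ofPowerSeries ℤ ℂ (qExpansion 1 f)) := by
    refine LExp.of_hasSum fun τ => ?_
    have := UpperHalfPlane.hasSum_qExpansion (h := 1) one_pos (by simpa using hf.1)
      hf.2.1 hf.2.2 τ
    simpa using this
  have h2 := h.unique one_pos h1
  have hc : ∀ k : ℤ, ι (z.coeff k) =
      (HahnSeries.ofPowerSeries ℤ ℂ (qExpansion 1 f)).coeff k := by
    intro k
    rw [← h2, coeffMap_coeff]
  refine ⟨PowerSeries.mk fun k => z.coeff k, ?_, ?_⟩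
  · ext k
    rcases le_or_gt 0 k with hk | hk
    · lift k to ℕ using hk
      rw [HahnSeries.ofPowerSeries_apply_coeff, PowerSeries.coeff_mk]
    · rw [ModularCurve.ofPowerSeries_coeff_of_neg _ hk]
      have := hc k
      rw [ModularCurve.ofPowerSeries_coeff_of_neg _ hk] at this
      exact (map_eq_zero ι).mp this
  · ext k
    rw [PowerSeries.coeff_map, PowerSeries.coeff_mk, hc, HahnSeries.ofPowerSeries_apply_coeff]

section Conj

variable {K : Type} [Field K] [Countable K] {ι : K →+* ℂ} {Γ : Subgroup SL(2, ℤ)} [GoodGroup Γ]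
  {χ ψ : Γ →* ℂˣ} {F G : ℍ → ℂ} {x y : LaurentSeries K} {n : ℕ}

theorem coeffMap_comp {R S T : Type*} [CommRing R] [CommRing S] [CommRing T] (f : R →+* S)
    (g : S →+* T) (x : LaurentSeries R) : coeffMap g (coeffMap f x) = coeffMap (g.comp f) x := by
  ext k
  simp [coeffMap_coeff]

omit [Countable K] in
theorem IsCF.T_eq_one (hF : IsCF ι Γ χ F x) (hx : x ≠ 0) :
    χ ⟨ModularGroup.T, GoodGroup.T_mem⟩ = 1 :=
  hF.eq_one_of_infty hx _ (by simp [ModularGroup.T])

/-- **Galois conjugates** of modular functions with character. -/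
theorem IsCF.exists_conj (hn : n ≠ 0) (hχ : χ ^ n = 1) (hF : IsCF ι Γ χ F y) (σ : K ≃+* K) :
    ∃ (χ' : Γ →* ℂˣ) (F' : ℍ → ℂ), χ' ^ n = 1 ∧ IsCF ι Γ χ' F' (coeffMap (σ : K →+* K) y) := by
  by_cases hy : y = 0
  · refine ⟨1, 0, by ext γ; simp, ?_⟩
    rw [hy, map_zero]
    exact IsCF.ofIsMF (IsMF.zero Γ 1)
  have hT := hF.T_eq_one hy
  obtain ⟨m, hm⟩ := hF.exists_charForm
  set f : ℍ → ℂ := fun τ => F τ * discriminant τ ^ m with hf
  have hlf : LExp 1 f (coeffMap ι (y * deltaC K ^ m)) := by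
    rw [map_mul, map_pow, coeffMap_deltaC]
    exact hF.lexp.mul (lexp_discriminant'.pow m)
  obtain ⟨P, hP, hqP⟩ := exists_powerSeries (hm.mem_qAlg hT) hlf
  obtain ⟨σ', hσ'⟩ := exists_ringEquiv_complex_comp ι (ι.comp (σ : K →+* K))
  obtain ⟨χ', f', hχ', hT', hf', hq'⟩ := hm.exists_conj hn hχ hT (GoodGroup.conj (Γ := Γ) σ')
  have hq'' : qExpansion 1 f' = (P.map (σ : K →+* K)).map ι := by
    rw [hq', hqP]
    ext k
    simp only [PowerSeries.coeff_map]
    exact hσ' _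
  have h1 := isCF_of_charForm (K := K) GoodGroup.T_mem hf' hT' (P.map (σ : K →+* K)) hq''
  refine ⟨χ', fun τ => f' τ * (discriminant τ)⁻¹ ^ m, hχ', ?_⟩
  have h2 : coeffMap (σ : K →+* K) y =
      HahnSeries.ofPowerSeries ℤ K (P.map (σ : K →+* K)) * deltaInvC K ^ m := by
    have h3 : y = HahnSeries.ofPowerSeries ℤ K P * deltaInvC K ^ m := by
      rw [← hP, mul_assoc, ← mul_pow, deltaC_mul_deltaInvC, one_pow, mul_one]
    rw [h3, map_mul, map_pow, coeffMap_deltaInvC, X0Emb.coeffMap_ofPowerSeries]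
  rw [h2]
  exact h1

/-- The character of the conjugate only depends on the character. -/
theorem IsCF.same_char (hn : n ≠ 0) (σ : K ≃+* K) {χ₁ χ₂ : Γ →* ℂˣ} {F₁ F₂ F₁' F₂' : ℍ → ℂ}
    {y₁ y₂ : LaurentSeries K} (hχ : χ ^ n = 1) (hχ₁ : χ₁ ^ n = 1)
    (hF₁ : IsCF ι Γ χ F₁ y₁) (hF₂ : IsCF ι Γ χ F₂ y₂)
    (hF₁' : IsCF ι Γ χ₁ F₁' (coeffMap (σ : K →+* K) y₁))
    (hF₂' : IsCF ι Γ χ₂ F₂' (coeffMap (σ : K →+* K) y₂)) (h₁ : y₁ ≠ 0) (h₂ : y₂ ≠ 0) :
    χ₁ = χ₂ := by
  obtain ⟨m, rfl⟩ := Nat.exists_eq_succ_of_ne_zero hn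
  have hG : IsCF ι Γ 1 (F₁ ^ m * F₂) (y₁ ^ m * y₂) :=
    ((hF₁.pow m).mul hF₂).char_congr ((pow_succ χ m).symm.trans hχ)
  obtain ⟨χ', G', hχ', hG'⟩ := hG.exists_conj (n := 1) one_ne_zero (by ext γ; simp) σ
  have hχ'1 : χ' = 1 := by
    ext γ
    have := DFunLike.congr_fun hχ' γ
    rw [MonoidHom.pow_apply, pow_one] at this
    rw [this]
  subst hχ'1
  have hG'' : IsCF ι Γ (χ₁ ^ m * χ₂) (F₁' ^ m * F₂') (coeffMap (σ : K →+* K) (y₁ ^ m * y₂)) := by
    rw [map_mul, map_pow]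
    exact (hF₁'.pow m).mul hF₂'
  have hne : coeffMap (σ : K →+* K) (y₁ ^ m * y₂) ≠ 0 := by
    rw [Ne, map_eq_zero_iff _ (coeffMap_injective _)]
    exact mul_ne_zero (pow_ne_zero _ h₁) h₂
  have hc := hG'.char_unique hG'' hne
  have hc' : χ₁ ^ m * χ₁ = 1 := (pow_succ χ₁ m).symm.trans hχ₁
  ext γ
  have e1 := DFunLike.congr_fun hc γ
  have e2 := DFunLike.congr_fun hc' γ
  rw [MonoidHom.mul_apply] at e1 e2
  rw [MonoidHom.one_apply] at e1 e2
  rw [e1] at e2
  rw [mul_left_cancel e2]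

end Conj

/-! ### Existence -/

section Existence

variable {K : Type} [Field K] [Countable K] [IsAlgClosed K] {ι : K →+* ℂ}
  {Γ : Subgroup SL(2, ℤ)} [GoodGroup Γ] {n : ℕ}

theorem mem_range_of_isAlgebraic {K : Type*} [Field K] [IsAlgClosed K] (ι : K →+* ℂ) {z : ℂ}
    (hz : IsAlgebraic ℚ z) : ∃ x : K, ι x = z := by
  have : CharZero K := (RingHom.charZero_iff ι.injective).mpr inferInstance
  obtain ⟨p, hp, hz⟩ := hz
  have hsp := IsAlgClosed.splits (p.map (algebraMap ℚ K))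
  have h1 : (p.map (algebraMap ℚ K)).map ι = p.map (algebraMap ℚ ℂ) := by
    rw [Polynomial.map_map]
    congr 1
    exact Subsingleton.elim _ _
  have h2 : (p.map (algebraMap ℚ ℂ)).roots = (p.map (algebraMap ℚ K)).roots.map ι := by
    rw [← h1]
    exact hsp.roots_map ι
  have h3 : z ∈ (p.map (algebraMap ℚ ℂ)).roots := by
    rw [Polynomial.mem_roots (Polynomial.map_ne_zero hp), Polynomial.IsRoot, Polynomial.eval_map,
      ← Polynomial.aeval_def]
    exact hz
  rw [h2, Multiset.mem_map] at h3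
  obtain ⟨x, -, hx⟩ := h3
  exact ⟨x, hx⟩

/-- Every character of finite order, trivial on the stabiliser of `∞`, is the character of a
nonzero modular function with coefficients in `K`. Moreover the expansion can be chosen to be fixed
by every automorphism of `K` fixing the character. -/
theorem exists_isCF (ι : K →+* ℂ) (hn : n ≠ 0) (χ : Γ →* ℂˣ) (hχ : χ ^ n = 1)
    (hinf : ∀ γ : Γ, ((γ : SL(2, ℤ)) : Matrix (Fin 2) (Fin 2) ℤ) 1 0 = 0 → χ γ = 1) :
    ∃ (F : ℍ → ℂ) (y : LaurentSeries K), y ≠ 0 ∧ IsCF ι Γ χ F y ∧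
      ∀ (σ : K ≃+* K) (F' : ℍ → ℂ), IsCF ι Γ χ F' (coeffMap (σ : K →+* K) y) →
        coeffMap (σ : K →+* K) y = y := by
  obtain ⟨f, hf0, hf, halg, hself⟩ := exists_algebraic_charForm_of_stable'
    (GoodGroup.T_mem (Γ := Γ)) (GoodGroup.conj (Γ := Γ)) hn χ hχ hinf 12 (by norm_num)
    (by decide)
  have hT : χ ⟨ModularGroup.T, GoodGroup.T_mem⟩ = 1 := hinf _ (by simp [ModularGroup.T])
  choose a ha using fun m => mem_range_of_isAlgebraic ι (halg m)
  set P : PowerSeries K := PowerSeries.mk a with hP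
  have hq : qExpansion 1 f = P.map ι := by
    ext m
    rw [PowerSeries.coeff_map, hP, PowerSeries.coeff_mk, ha]
  have hf' : CharForm Γ χ (12 * ((1 : ℕ) : ℤ)) f := hf.weight_congr (by norm_num)
  have h1 := isCF_of_charForm (K := K) GoodGroup.T_mem hf' hT P hq
  have hne : HahnSeries.ofPowerSeries ℤ K P * deltaInvC K ^ 1 ≠ 0 := by
    intro h0
    have h2 := (IsCF.eq_zero_iff h1.lexp).mpr h0
    apply hf0
    ext τ
    have := congrFun h2 τ
    simp only [pow_one, Pi.zero_apply, mul_eq_zero, inv_eq_zero] at this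
    exact this.resolve_right (discriminant_ne_zero τ)
  refine ⟨_, _, hne, h1, fun σ F' hF' => ?_⟩
  obtain ⟨σ', hσ'⟩ := exists_ringEquiv_complex_comp ι (ι.comp (σ : K →+* K))
  obtain ⟨χ', f', hχ', hT', hf'', hq'⟩ := hf'.exists_conj hn hχ hT (GoodGroup.conj (Γ := Γ) σ')
  have hq'' : qExpansion 1 f' = (P.map (σ : K →+* K)).map ι := by
    rw [hq', hq]
    ext k
    simp only [PowerSeries.coeff_map]
    exact hσ' _
  have h2 := isCF_of_charForm (K := K) GoodGroup.T_mem hf'' hT' (P.map (σ : K →+* K)) hq''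
  have h3 : coeffMap (σ : K →+* K) (HahnSeries.ofPowerSeries ℤ K P * deltaInvC K ^ 1) =
      HahnSeries.ofPowerSeries ℤ K (P.map (σ : K →+* K)) * deltaInvC K ^ 1 := by
    rw [map_mul, map_pow, coeffMap_deltaInvC, X0Emb.coeffMap_ofPowerSeries]
  rw [h3] at hF'
  have hne' : HahnSeries.ofPowerSeries ℤ K (P.map (σ : K →+* K)) * deltaInvC K ^ 1 ≠ 0 := by
    rw [← h3, Ne, map_eq_zero_iff _ (coeffMap_injective _)]
    exact hne
  have hχχ : χ = χ' := hF'.char_unique h2 hne'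
  subst hχχ
  have h4 := hself σ' f' (hf''.weight_congr (by norm_num)) hq'
  rw [h3]
  rw [h4] at hq''
  have h5 : P.map (σ : K →+* K) = P :=
    PowerSeries.map_injective ι ι.injective (hq''.symm.trans hq)
  rw [h5]

end Existence

end Fermat.Agent.X1Char
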