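import Fermat.Agent.X1Char.Action
import Fermat.Agent.X1.HeckeQ
import Fermat.Agent.ModFun.NormH
import Fermat.Agent.ModFun.RootSeries

/-!
# Diamond operators on characters
-/

set_option autoImplicit false

open UpperHalfPlane hiding I
open ModularForm Matrix.SpecialLinearGroup Filter Asymptotics CongruenceSubgroup
open scoped MatrixGroups Manifold ModularForm Polynomial Topology

noncomputable section

namespace Fermat.Agent.X1Char

open Fermat.Agent.JLevelOne Fermat.Agent.X0Emb Fermat.Agent.ModFun ModularCurve Fermat.Agent.FG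
open Fermat.Agent.EisChar Fermat.Agent.S28aux Fermat.Agent.IntStruct Fermat.Agent.HeckePar
open Fermat.Agent.X1

/-- An element of `ℂ` fixed by all automorphisms fixing an algebraically closed subfield `K`
pointwise belongs to `K`. -/
theorem mem_range_of_fixed {K : Type} [Field K] [Countable K] [IsAlgClosed K] (ι : K →+* ℂ) {z : ℂ}
    (hz : ∀ τ : ℂ ≃+* ℂ, (∀ x, τ (ι x) = ι x) → τ z = z) : ∃ x : K, ι x = z := by
  by_contra hne
  -- `z` is transcendental over `K`
  have htr : ∀ w : ℂ, (∀ x, ι x ≠ w) → Function.Injective (Polynomial.eval₂RingHom ι w) := by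
    intro w hw
    rw [injective_iff_map_eq_zero]
    intro p hp
    by_contra hp0
    have hsp := IsAlgClosed.splits p
    have h2 : (p.map ι).roots = p.roots.map ι := hsp.roots_map ι
    have h3 : w ∈ (p.map ι).roots := by
      rw [Polynomial.mem_roots (Polynomial.map_ne_zero hp0), Polynomial.IsRoot,
        Polynomial.eval_map]
      exact hp
    rw [h2, Multiset.mem_map] at h3
    obtain ⟨x, -, hx⟩ := h3
    exact hw x hx
  have h1 : ∀ x, ι x ≠ z := fun x hx => hne ⟨x, hx⟩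
  have h2 : ∀ x, ι x ≠ z + 1 := fun x hx => hne ⟨x - 1, by rw [map_sub, hx, map_one]; ring⟩
  have hc : Countable (FractionRing (Polynomial K)) := by
    have hsurj : Function.Surjective
        (fun r : Polynomial K × Polynomial K =>
          algebraMap (Polynomial K) (FractionRing (Polynomial K)) r.1 /
          algebraMap (Polynomial K) (FractionRing (Polynomial K)) r.2) := by
      intro x
      obtain ⟨a, b, -, h⟩ := IsFractionRing.div_surjective (A := Polynomial K) x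
      exact ⟨(a, b), h⟩
    have : Countable (Polynomial K) := by
      rw [← Cardinal.mk_le_aleph0_iff]
      refine Polynomial.cardinalMk_le_max.trans ?_
      simp
    exact hsurj.countable
  obtain ⟨τ, hτ⟩ := exists_ringEquiv_complex_comp
    (IsFractionRing.lift (A := Polynomial K) (K := FractionRing (Polynomial K)) (htr z h1))
    (IsFractionRing.lift (A := Polynomial K) (K := FractionRing (Polynomial K)) (htr (z + 1) h2))
  have h3 : ∀ p : Polynomial K, τ (Polynomial.eval₂ ι z p) = Polynomial.eval₂ ι (z + 1) p := by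
    intro p
    have := hτ (algebraMap _ _ p)
    simpa [IsFractionRing.lift_algebraMap] using! this
  have h4 := h3 Polynomial.X
  rw [Polynomial.eval₂_X, Polynomial.eval₂_X] at h4
  have h5 := hz τ fun x => by
    have := h3 (Polynomial.C x)
    rwa [Polynomial.eval₂_C, Polynomial.eval₂_C] at this
  rw [h4] at h5
  exact one_ne_zero (α := ℂ) (by linear_combination h5)

/-! ### Operators on characters -/

section Ops

variable {M : ℕ} {Γ : Subgroup SL(2, ℤ)} [hΓ : Between M Γ]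

variable (M Γ) in
/-- The diamond operators on characters. -/
def dChar (u : (ZMod M)ˣ) : (Γ →* ℂˣ) →* (Γ →* ℂˣ) where
  toFun χ := ((diaSys M u).sys Γ).transfer χ
  map_one' := CosetSys.transfer_one _
  map_mul' χ ψ := CosetSys.transfer_mul _ χ ψ

variable (M Γ) in
/-- The Hecke operators on characters. -/
def tChar (p : ℕ) [Fact p.Prime] : (Γ →* ℂˣ) →* (Γ →* ℂˣ) where
  toFun χ := ((hSys M p).sys Γ).transfer χ
  map_one' := CosetSys.transfer_one _
  map_mul' χ ψ := CosetSys.transfer_mul _ χ ψ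

theorem dChar_apply (u : (ZMod M)ˣ) (χ : Γ →* ℂˣ) :
    dChar M Γ u χ = ((diaSys M u).sys Γ).transfer χ := rfl

theorem tChar_apply (p : ℕ) [Fact p.Prime] (χ : Γ →* ℂˣ) :
    tChar M Γ p χ = ((hSys M p).sys Γ).transfer χ := rfl

theorem transfer_toAdditive {X : Type*} [Fintype X] {G : Type*} [Group G] {i : Γ →* G}
    (S : CosetSys i X) {B : Type*} [CommGroup B] (χ : Γ →* B) :
    MonoidHom.toAdditive (S.transfer χ) = S.addTransfer (MonoidHom.toAdditive χ) := by
  refine AddMonoidHom.ext fun g => ?_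
  rw [CosetSys.addTransfer_apply]
  simp only [MonoidHom.toAdditive_apply_apply, CosetSys.transfer_apply, toMul_ofMul, ofMul_prod]

theorem toAdditive_dChar (u : (ZMod M)ˣ) (χ : Γ →* ℂˣ) :
    MonoidHom.toAdditive (dChar M Γ u χ) = dOp M ℕ Γ (Additive ℂˣ) u (MonoidHom.toAdditive χ) :=
  transfer_toAdditive _ χ

theorem toAdditive_tChar (p : ℕ) [Fact p.Prime] (χ : Γ →* ℂˣ) :
    MonoidHom.toAdditive (tChar M Γ p χ) = tOp M ℕ Γ (Additive ℂˣ) p (MonoidHom.toAdditive χ) :=
  transfer_toAdditive _ χ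

theorem dChar_mul (u v : (ZMod M)ˣ) (χ : Γ →* ℂˣ) :
    dChar M Γ (u * v) χ = dChar M Γ u (dChar M Γ v χ) := by
  apply MonoidHom.toAdditive.injective
  rw [toAdditive_dChar, toAdditive_dChar, toAdditive_dChar, dOp_mul]

theorem dChar_one (χ : Γ →* ℂˣ) : dChar M Γ 1 χ = χ := by
  apply MonoidHom.toAdditive.injective
  rw [toAdditive_dChar, dOp_one]

theorem dChar_tChar_comm (u : (ZMod M)ˣ) (p : ℕ) [Fact p.Prime] (χ : Γ →* ℂˣ) :
    dChar M Γ u (tChar M Γ p χ) = tChar M Γ p (dChar M Γ u χ) := by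
  apply MonoidHom.toAdditive.injective
  rw [toAdditive_dChar, toAdditive_tChar, toAdditive_tChar, toAdditive_dChar, dOp_tOp_comm]

theorem tChar_comm (p q : ℕ) [Fact p.Prime] [Fact q.Prime] (χ : Γ →* ℂˣ) :
    tChar M Γ p (tChar M Γ q χ) = tChar M Γ q (tChar M Γ p χ) := by
  apply MonoidHom.toAdditive.injective
  rw [toAdditive_tChar, toAdditive_tChar, toAdditive_tChar, toAdditive_tChar, tOp_comm]

/-! ### Operators on functions -/

theorem dia_rep_smul (u : (ZMod M)ˣ) (x : Unit) (τ : ℍ) :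
    ((diaSys M u).sys Γ).rep x • τ = diaMat M u • τ := by
  have h1 : (diaSys M u).glRep x = mapGL ℝ (diaMat M u) := by
    rw [← Units.val_inj, IntSys.val_glRep, val_mapGL]
    rfl
  rw [IntSys.sys_rep, h1]
  rfl

theorem mulOp_dia (u : (ZMod M)ˣ) (F : ℍ → ℂ) :
    ((diaSys M u).sys Γ).mulOp F = fun τ => F (diaMat M u • τ) := by
  funext τ
  simp only [CosetSys.mulOp, Finset.univ_unique, Finset.prod_singleton, dia_rep_smul]

theorem mulOp_char' {n : ℤ} {a : ZMod M} {X : Type*} [Fintype X] (S : IntSys M n a X)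
    {χ : Γ →* ℂˣ} {F : ℍ → ℂ} (hF : ∀ (γ : Γ) (τ : ℍ), F ((γ : SL(2, ℤ)) • τ) = (χ γ : ℂ) * F τ)
    (γ : Γ) (τ : ℍ) :
    (S.sys Γ).mulOp F ((γ : SL(2, ℤ)) • τ) =
      (((S.sys Γ).transfer χ γ : ℂˣ) : ℂ) * (S.sys Γ).mulOp F τ :=
  (S.sys Γ).mulOp_smul χ (Units.coeHom ℂ) F hF γ τ

theorem dia_char {u : (ZMod M)ˣ} {χ : Γ →* ℂˣ} {F : ℍ → ℂ}
    (hF : ∀ (γ : Γ) (τ : ℍ), F ((γ : SL(2, ℤ)) • τ) = (χ γ : ℂ) * F τ) (γ : Γ) (τ : ℍ) :
    F (diaMat M u • ((γ : SL(2, ℤ)) • τ)) =
      ((dChar M Γ u χ γ : ℂˣ) : ℂ) * F (diaMat M u • τ) := by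
  have h := mulOp_char' (diaSys M u) hF γ τ
  rw [mulOp_dia] at h
  exact h

theorem mdiff_comp_smul {F : ℍ → ℂ} (hF : MDiff F) (δ : SL(2, ℤ)) :
    MDiff (fun τ => F (δ • τ)) := by
  have h : (fun τ => F (δ • τ)) = F ∣[(0 : ℤ)] δ := by
    funext τ
    rw [SL_slash_apply]
    simp
  rw [h]
  exact hF.slash 0 _

end Ops

/-- Groups between `Γ₁(M)` and `Γ₀(M)` such that the automorphisms of `ℂ` act on the modular
functions compatibly with the diamond operators. -/
class DiaGroup (M : ℕ) (Γ : Subgroup SL(2, ℤ)) : Prop where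
  dia : ∀ (σ : ℂ ≃+* ℂ) (u : (ZMod M)ˣ) (F F' : ℍ → ℂ) (G D : LaurentSeries ℂ),
    IsMF (RingHom.id ℂ) Γ 1 F G → IsMF (RingHom.id ℂ) Γ 1 F' (coeffMap (σ : ℂ →+* ℂ) G) →
    LExp 1 (fun τ => F (diaMat M u • τ)) D →
    LExp 1 (fun τ => F' (diaMat M u • τ)) (coeffMap (σ : ℂ →+* ℂ) D)

theorem coeffMap_id {R : Type*} [CommRing R] (G : LaurentSeries R) :
    coeffMap (RingHom.id R) G = G := by
  ext k
  rw [coeffMap_coeff]
  rfl

theorem smul_growth {F : ℍ → ℂ} (hF : ModGrowth F) (δ : SL(2, ℤ)) :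
    ModGrowth (fun τ => F (δ • τ)) := by
  intro σ
  have := hF (δ * σ)
  simpa [mul_smul] using this

theorem mf_toC {K : Type*} [Field K] {ι : K →+* ℂ} {Γ : Subgroup SL(2, ℤ)} {F : ℍ → ℂ}
    {y : LaurentSeries K} (h : IsMF ι Γ 1 F y) : IsMF (RingHom.id ℂ) Γ 1 F (coeffMap ι y) where
  mdiff := h.mdiff
  inv := h.inv
  growth := h.growth
  lexp := by rw [coeffMap_id]; exact h.lexp

section Dia

variable {M : ℕ} {K : Type} [Field K] {ι : K →+* ℂ} {Γ : Subgroup SL(2, ℤ)}
  [hΓ : Between M Γ] [GoodGroup Γ] [hD : DiaGroup M Γ] {F F' : ℍ → ℂ} {y z : LaurentSeries K}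

omit [GoodGroup Γ] hD in
/-- conjugates of invariant functions by the elements of `Γ₀(M)` are invariant. -/
theorem dia_inv (hF : ∀ γ ∈ Γ, ∀ τ : ℍ, F (γ • τ) = F τ) (u : (ZMod M)ˣ) :
    ∀ γ ∈ Γ, ∀ τ : ℍ, F (diaMat M u • (γ • τ)) = F (diaMat M u • τ) := by
  intro γ hγ τ
  have h := dia_char (M := M) (u := u) (χ := (1 : Γ →* ℂˣ)) (F := F)
    (fun γ τ => by rw [hF γ γ.2]; simp) ⟨γ, hγ⟩ τ
  rw [map_one] at h
  simpa using h

variable [Countable K] [IsAlgClosed K]

/-- `F ∘ δ` has coefficients in `K`. -/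
theorem mf_exists_dia (hF : IsMF ι Γ 1 F y) (u : (ZMod M)ˣ) :
    ∃ z : LaurentSeries K, IsMF ι Γ 1 (fun τ => F (diaMat M u • τ)) z := by
  have hinv := dia_inv hF.inv u
  have hm := mdiff_comp_smul hF.mdiff (diaMat M u)
  have hg := smul_growth hF.growth (diaMat M u)
  obtain ⟨D, hDexp⟩ := exists_lexp (h := 1) hm (fun τ => by
    have h1 := hinv _ (GoodGroup.T_mem (Γ := Γ)) τ
    rw [UpperHalfPlane.modular_T_smul] at h1
    simpa using h1) (by
    have h1 : GrowthInf (fun τ => F (diaMat M u • ((1 : SL(2, ℤ)) • τ))) := hg 1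
    simpa only [one_smul] using h1)
  rw [Nat.cast_one] at hDexp
  have hfix : ∀ k, ∃ x : K, ι x = D.coeff k := by
    intro k
    refine mem_range_of_fixed ι fun τ hτ => ?_
    have h1 : coeffMap (τ : ℂ →+* ℂ) (coeffMap ι y) = coeffMap ι y := by
      ext j
      rw [coeffMap_coeff, coeffMap_coeff]
      exact hτ _
    have h2 := DiaGroup.dia (M := M) τ u F F (coeffMap ι y) D (mf_toC hF) (by rw [h1]; exact (mf_toC hF))
      hDexp
    have h3 := hDexp.unique one_pos h2
    conv_rhs => rw [h3]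
    rw [coeffMap_coeff]
    rfl
  choose a ha using hfix
  have hz : ∃ z : LaurentSeries K, coeffMap ι z = D := by
    refine ⟨⟨a, ?_⟩, ?_⟩
    · have hs : Function.support a = D.support := by
        ext k
        rw [Function.mem_support, HahnSeries.mem_support, ← ha k, Ne, Ne, map_eq_zero]
      rw [hs]
      exact D.isPWO_support
    · ext k
      rw [coeffMap_coeff]
      exact ha k
  obtain ⟨z, rfl⟩ := hz
  exact ⟨z, hm, hinv, hg, by simpa using hDexp⟩

omit [IsAlgClosed K] in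
theorem mf_dia_conj (hF : IsMF ι Γ 1 F y) {u : (ZMod M)ˣ}
    (hz : LExp 1 (fun τ => F (diaMat M u • τ)) (coeffMap ι z)) (σ : K ≃+* K)
    (hF' : IsMF ι Γ 1 F' (coeffMap (σ : K →+* K) y)) :
    LExp 1 (fun τ => F' (diaMat M u • τ)) (coeffMap ι (coeffMap (σ : K →+* K) z)) := by
  obtain ⟨σ', hσ'⟩ := exists_ringEquiv_complex_comp ι (ι.comp (σ : K →+* K))
  have hc : ∀ w : LaurentSeries K, coeffMap (σ' : ℂ →+* ℂ) (coeffMap ι w) =
      coeffMap ι (coeffMap (σ : K →+* K) w) := by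
    intro w
    ext k
    rw [coeffMap_coeff, coeffMap_coeff, coeffMap_coeff, coeffMap_coeff]
    exact hσ' _
  rw [← hc]
  refine DiaGroup.dia (M := M) σ' u F F' (coeffMap ι y) _ (mf_toC hF) ?_ hz
  rw [hc]
  exact (mf_toC hF')

end Dia

end Fermat.Agent.X1Char
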