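import Fermat.Agent.X1Char.XGroup

/-!
# Hecke operators on characters
-/

set_option autoImplicit false

open UpperHalfPlane hiding I
open ModularForm Matrix.SpecialLinearGroup Filter Asymptotics CongruenceSubgroup
open scoped MatrixGroups Manifold ModularForm Polynomial Topology

noncomputable section

namespace Fermat.Agent.X1Char

open Fermat.Agent.JLevelOne Fermat.Agent.X0Emb Fermat.Agent.ModFun ModularCurve Fermat.Agent.FG
open Fermat.Agent.EisChar Fermat.Agent.S28aux Fermat.Agent.IntStruct Fermat.Agent.HeckePar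
open Fermat.Agent.X1 Fermat.Agent.TEll

section Fun

variable {M : ℕ} {Γ : Subgroup SL(2, ℤ)} [hΓ : Between M Γ] {p : ℕ} [hp : Fact p.Prime] [NeZero p]

theorem hSys_rep_some (j : ZMod p) (h : p ∣ M → some j ≠ none) (τ : ℍ) :
    (hSys M p).glRep ⟨some j, h⟩ • τ = aff 1 j.val p τ := by
  rw [glRep_some]
  exact hrep_some_smul p j τ

theorem hSys_rep_none (h : p ∣ M → (none : Option (ZMod p)) ≠ none) (τ : ℍ) :
    (hSys M p).glRep ⟨none, h⟩ • τ = diaMat M (pUnit M p) • aff p 0 1 τ := by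
  rw [glRep_none, mul_smul]
  have h1 : heckeDiagMatrix p • τ = aff p 0 1 τ := hrep_none_smul p τ
  rw [h1]
  rfl

theorem mulOp_hSys_of_not_dvd (hN : ¬ p ∣ M) (F : ℍ → ℂ) :
    ((hSys M p).sys Γ).mulOp F = fun τ => F (diaMat M (pUnit M p) • aff p 0 1 τ) *
      ∏ b : Fin p, F (aff 1 b p τ) := by
  funext τ
  rw [CosetSys.mulOp, ← Equiv.prod_comp (hidxEquivOfNotDvd hN).symm, Fintype.prod_option,
    ← zmod_prod_eq p (fun b => F (aff 1 b p τ))]
  congr 1
  · exact congrArg F (hSys_rep_none (fun h' => absurd h' hN) τ)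
  · exact Finset.prod_congr rfl fun j _ => congrArg F (hSys_rep_some j _ τ)

theorem mulOp_hSys_of_dvd (hN : p ∣ M) (F : ℍ → ℂ) :
    ((hSys M p).sys Γ).mulOp F = fun τ => ∏ b : Fin p, F (aff 1 b p τ) := by
  funext τ
  rw [CosetSys.mulOp, ← Equiv.prod_comp (hidxEquivOfDvd hN).symm,
    ← zmod_prod_eq p (fun b => F (aff 1 b p τ))]
  exact Finset.prod_congr rfl fun j _ => congrArg F (hSys_rep_some j _ τ)

theorem mdiff_finset_prod {α : Type*} (s : Finset α) {F : α → ℍ → ℂ} (h : ∀ a ∈ s, MDiff (F a)) :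
    MDiff (∏ a ∈ s, F a) := by
  classical
  induction s using Finset.induction_on with
  | empty => exact mdifferentiable_const
  | insert a s ha ih =>
    rw [Finset.prod_insert ha]
    exact (h a (Finset.mem_insert_self a s)).mul
      (ih fun b hb => h b (Finset.mem_insert_of_mem hb))

omit hp in
theorem prod_aff_eq (F : ℍ → ℂ) :
    (fun τ => ∏ b : Fin p, F (aff 1 b p τ)) = ∏ b : Fin p, fun τ => F (aff 1 b p τ) := by
  funext τ
  rw [Finset.prod_apply]

end Fun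

section CF

variable {M : ℕ} {K : Type*} [Field K] {ι : K →+* ℂ} {Γ : Subgroup SL(2, ℤ)}
  [hΓ : Between M Γ] {F : ℍ → ℂ} {y z : LaurentSeries K} {χ : Γ →* ℂˣ}
  {p : ℕ} [hp : Fact p.Prime] [NeZero p]

/-- The Hecke operator on functions with character, `p ∤ M`. -/
theorem IsCF.hecke (hN : ¬ p ∣ M) (hF : IsCF ι Γ χ F y)
    (hz : LExp 1 (fun τ => F (diaMat M (pUnit M p) • τ)) (coeffMap ι z)) :
    IsCF ι Γ (tChar M Γ p χ)
      (fun τ => F (diaMat M (pUnit M p) • aff p 0 1 τ) * ∏ b : Fin p, F (aff 1 b p τ))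
      (qExpand K p z * secNorm K p y) where
  mdiff := by
    refine (mdiff_comp_aff (mdiff_comp_smul hF.mdiff (diaMat M (pUnit M p))) p 0 1).mul ?_
    rw [prod_aff_eq]
    exact mdiff_finset_prod _ fun b _ => mdiff_comp_aff hF.mdiff 1 b p
  char γ τ := by
    have h := mulOp_char' (hSys M p) hF.char γ τ
    rw [mulOp_hSys_of_not_dvd hN] at h
    exact h
  growth := by
    refine ((smul_growth hF.growth (diaMat M (pUnit M p))).comp_aff p 0 1).mul ?_
    rw [prod_aff_eq]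
    exact ModGrowth.prod _ fun b _ => hF.growth.comp_aff 1 b p
  lexp := by
    rw [map_mul, ModularCurve.coeffMap_qExpand, coeffMap_secNorm]
    exact (lexp_aff_mul p hz).mul (lexp_secNorm p hF.lexp)

/-- The Hecke operator on functions with character, `p ∣ M`. -/
theorem IsCF.heckeU (hN : p ∣ M) (hF : IsCF ι Γ χ F y) :
    IsCF ι Γ (tChar M Γ p χ) (fun τ => ∏ b : Fin p, F (aff 1 b p τ)) (secNorm K p y) where
  mdiff := by
    rw [prod_aff_eq]
    exact mdiff_finset_prod _ fun b _ => mdiff_comp_aff hF.mdiff 1 b p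
  char γ τ := by
    have h := mulOp_char' (hSys M p) hF.char γ τ
    rw [mulOp_hSys_of_dvd hN] at h
    exact h
  growth := by
    rw [prod_aff_eq]
    exact ModGrowth.prod _ fun b _ => hF.growth.comp_aff 1 b p
  lexp := by
    rw [coeffMap_secNorm]
    exact lexp_secNorm p hF.lexp

end CF

theorem secNorm_ne_zero' {k : Type*} [Field k] {p : ℕ} [NeZero p] {y : LaurentSeries k}
    (hy : y ≠ 0) : secNorm k p y ≠ 0 := by
  rw [secNorm_apply]
  have h : toCov k p y ≠ 0 := (map_ne_zero_iff _ (toCov k p).injective).mpr hy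
  exact Algebra.norm_ne_zero_iff.mpr h

section Stable

variable {M : ℕ} {K : Type} [Field K] [Countable K] [IsAlgClosed K] {ι : K →+* ℂ}
  {Γ : Subgroup SL(2, ℤ)} [hΓ : Between M Γ] [GoodGroup Γ] [hD : DiaGroup M Γ] {n : ℕ} [NeZero n]

theorem qExpand_ne_zero' {k : Type*} [Field k] {p : ℕ} [NeZero p] {y : LaurentSeries k}
    (hy : y ≠ 0) : qExpand k p y ≠ 0 :=
  (map_ne_zero_iff _ (qExpand k p).injective).mpr hy

omit [Countable K] [IsAlgClosed K] hΓ [GoodGroup Γ] in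
theorem IsCF.smul_ne_zero {χ : Γ →* ℂˣ} {F : ℍ → ℂ} {y : LaurentSeries K} (hF : IsCF ι Γ χ F y)
    (hy : y ≠ 0) (δ : SL(2, ℤ)) : (fun τ => F (δ • τ)) ≠ 0 := by
  have h4 : F ≠ 0 := fun h => hy ((IsCF.eq_zero_iff hF.lexp).mp h)
  obtain ⟨τ, hτ⟩ := Function.ne_iff.mp h4
  refine Function.ne_iff.mpr ⟨δ⁻¹ • τ, ?_⟩
  simpa using hτ

variable (ι) in
/-- Everything about the Hecke operator at `p` in terms of expansions, `p ∤ M`. -/
theorem exists_hecke {χ : Γ →* ℂˣ} (hχ : χ ∈ xGroup M Γ n) (p : ℕ) [Fact p.Prime] [NeZero p]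
    (hN : ¬ p ∣ M) {F : ℍ → ℂ} {y : LaurentSeries K} (hy : y ≠ 0) (hF : IsCF ι Γ χ F y) :
    ∃ z : LaurentSeries K, z ≠ 0 ∧
      IsCF ι Γ (dChar M Γ (pUnit M p) χ) (fun τ => F (diaMat M (pUnit M p) • τ)) z ∧
      IsCF ι Γ (tChar M Γ p χ)
      (fun τ => F (diaMat M (pUnit M p) • aff p 0 1 τ) * ∏ b : Fin p, F (aff 1 b p τ))
      (qExpand K p z * secNorm K p y) := by
  obtain ⟨z, hz⟩ := hF.exists_dia (NeZero.ne n) hχ (pUnit M p)
  refine ⟨z, ?_, hz, hF.hecke hN hz.lexp⟩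
  rintro rfl
  exact hF.smul_ne_zero hy _ ((IsCF.eq_zero_iff hz.lexp).mpr rfl)

variable (ι) in
include ι in
theorem tChar_mem_charGroup {χ : Γ →* ℂˣ} (hχ : χ ∈ xGroup M Γ n) (p : ℕ) [Fact p.Prime] :
    tChar M Γ p χ ∈ charGroup Γ n := by
  have : NeZero p := ⟨(Fact.out : p.Prime).ne_zero⟩
  obtain ⟨F, y, hy, hF, -⟩ := exists_isCF' (K := K) ι (n := n) ⟨χ, xGroup_le n hχ⟩
  have h1 : ∃ (G : ℍ → ℂ) (w : LaurentSeries K), w ≠ 0 ∧ IsCF ι Γ (tChar M Γ p χ) G w := by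
    by_cases hN : p ∣ M
    · exact ⟨_, _, secNorm_ne_zero' hy, hF.heckeU hN⟩
    · obtain ⟨z, hz0, -, hT⟩ := exists_hecke ι hχ p hN hy hF
      exact ⟨_, _, mul_ne_zero (qExpand_ne_zero' hz0) (secNorm_ne_zero' hy), hT⟩
  obtain ⟨G, w, hw, hG⟩ := h1
  refine ⟨?_, hG.eq_one_of_infty hw⟩
  have h2 : tChar M Γ p (χ ^ n) = 1 := by rw [(xGroup_le n hχ).1, map_one]
  exact (map_pow (tChar M Γ p) χ n).symm.trans h2

variable (ι) in
include ι in
theorem tChar_mem_xGroup {χ : Γ →* ℂˣ} (hχ : χ ∈ xGroup M Γ n) (p : ℕ) [Fact p.Prime] :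
    tChar M Γ p χ ∈ xGroup M Γ n := by
  rw [mem_xGroup]
  intro u
  rw [dChar_tChar_comm]
  exact tChar_mem_charGroup ι (dChar_mem_xGroup hχ u) p

/-- The Galois action commutes with the Hecke operators. -/
theorem tChar_conjChar (σ : K ≃+* K) (χ : charGroup Γ n) (hχ : χ.1 ∈ xGroup M Γ n)
    (hχ' : (conjChar ι σ χ).1 ∈ xGroup M Γ n)
    (p : ℕ) [Fact p.Prime] (ht : tChar M Γ p χ.1 ∈ charGroup Γ n) :
    tChar M Γ p (conjChar ι σ χ).1 = (conjChar ι σ ⟨tChar M Γ p χ.1, ht⟩).1 := by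
  have : NeZero p := ⟨(Fact.out : p.Prime).ne_zero⟩
  have hinj : ∀ {z : LaurentSeries K}, z ≠ 0 → coeffMap (σ : K →+* K) z ≠ 0 := fun {z} hz => by
    rw [Ne, map_eq_zero_iff _ (coeffMap_injective _)]
    exact hz
  obtain ⟨F, y, hy, hF, -⟩ := exists_isCF' ι χ
  obtain ⟨F', hF'⟩ := conjChar_spec ι σ χ hF
  by_cases hN : p ∣ M
  · have h1 := hF.heckeU hN
    have h2 := hF'.heckeU hN
    rw [← coeffMap_secNorm] at h2
    exact eq_conjChar ι σ ⟨tChar M Γ p χ.1, ht⟩ h1 (secNorm_ne_zero' hy) h2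
  · obtain ⟨z, hz0, hz, hT⟩ := exists_hecke ι hχ p hN hy hF
    obtain ⟨z', hz'0, hz', hT'⟩ := exists_hecke ι hχ' p hN (hinj hy) hF'
    obtain ⟨H, hH⟩ := conjChar_spec ι σ ⟨tChar M Γ p χ.1, ht⟩ hT
    -- `z' ^ n = σ z ^ n`
    have hFn : IsMF ι Γ 1 (F ^ n) (y ^ n) := ((hF.pow n).char_congr χ.2.1).toIsMF
    have hFn' : IsMF ι Γ 1 (F' ^ n) (coeffMap (σ : K →+* K) (y ^ n)) := by
      rw [map_pow]
      exact ((hF'.pow n).char_congr (conjChar ι σ χ).2.1).toIsMF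
    have hzn : LExp 1 (fun τ => (F ^ n) (diaMat M (pUnit M p) • τ)) (coeffMap ι (z ^ n)) := by
      rw [map_pow]
      exact hz.lexp.pow n
    have h1 := mf_dia_conj (M := M) hFn hzn σ hFn'
    have h2 : LExp 1 (fun τ => (F' ^ n) (diaMat M (pUnit M p) • τ)) (coeffMap ι (z' ^ n)) := by
      rw [map_pow]
      exact hz'.lexp.pow n
    have h3 : z' ^ n = coeffMap (σ : K →+* K) z ^ n := by
      rw [← map_pow]
      exact IsCF.unique h2 h1
    -- compare the functions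
    have h4 : (fun τ => F' (diaMat M (pUnit M p) • aff p 0 1 τ) *
        ∏ b : Fin p, F' (aff 1 b p τ)) ^ n = H ^ n := by
      have e1 := hT'.lexp.pow n
      have e2 := hH.lexp.pow n
      rw [← map_pow] at e1 e2
      refine IsCF.funext' e1 ?_
      have e3 : (qExpand K p z' * secNorm K p (coeffMap (σ : K →+* K) y)) ^ n =
          (coeffMap (σ : K →+* K) (qExpand K p z * secNorm K p y)) ^ n := by
        rw [map_mul, ModularCurve.coeffMap_qExpand, coeffMap_secNorm, mul_pow, mul_pow,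
          ← map_pow (qExpand K p), h3, map_pow (qExpand K p)]
      rw [e3]
      exact e2
    have h5 : (fun τ => F' (diaMat M (pUnit M p) • aff p 0 1 τ) *
        ∏ b : Fin p, F' (aff 1 b p τ)) ≠ 0 := by
      intro h0
      have := (IsCF.eq_zero_iff hT'.lexp).mp h0
      exact mul_ne_zero (qExpand_ne_zero' hz'0) (secNorm_ne_zero' (hinj hy)) this
    exact char_eq_of_pow_eq hT'.mdiff hH.mdiff (NeZero.ne n) h4 h5 hT'.char hH.char

end Stable

end Fermat.Agent.X1Char
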