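import Fermat.Agent.X1Char.Key
import Fermat.Agent.X1Char.Inst

/-!
# KEY for forms implies KEY for functions
-/

set_option autoImplicit false

open UpperHalfPlane hiding I
open ModularForm Matrix.SpecialLinearGroup Filter Asymptotics CongruenceSubgroup
open scoped MatrixGroups Manifold ModularForm Polynomial Topology

noncomputable section

namespace Fermat.Agent.X1Char

open Fermat.Agent.JLevelOne Fermat.Agent.X0Emb Fermat.Agent.ModFun ModularCurve Fermat.Agent.FG
open Fermat.Agent.EisChar Fermat.Agent.S28aux Fermat.Agent.IntStruct Fermat.Agent.HeckePar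
open Fermat.Agent.X1 Fermat.Agent.TEll Fermat.Agent.GaussVal

/-- KEY in terms of forms. -/
def KeyForm (ι : Qbar →+* ℂ) (Γ : Subgroup SL(2, ℤ)) (n : ℕ) (A : ValuationSubring Qbar) : Prop :=
  ∀ (k : ℤ) (ψ : Γ →* ℂˣ), ψ ^ n = 1 →
    (∀ γ : Γ, ((γ : SL(2, ℤ)) : Matrix (Fin 2) (Fin 2) ℤ) 1 0 = 0 → ψ γ = 1) →
    ∀ (g h : ℍ → ℂ), CharForm Γ ψ k g → CharForm Γ 1 k h →
    ∀ (G H : PowerSeries A), qExpansion 1 (g ^ n) = G.map (ι.comp A.subtype) →
      qExpansion 1 h = H.map (ι.comp A.subtype) →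
      G.map (IsLocalRing.residue A) = (H.map (IsLocalRing.residue A)) ^ n →
      H.map (IsLocalRing.residue A) ≠ 0 → ψ = 1

theorem exists_powerSeries' {R : Type*} [CommRing R] {j : R →+* ℂ} (hj : Function.Injective j)
    {f : ℍ → ℂ} (hf : f ∈ qAlg) {z : LaurentSeries R} (h : LExp 1 f (coeffMap j z)) :
    ∃ P : PowerSeries R, z = HahnSeries.ofPowerSeries ℤ R P ∧ qExpansion 1 f = P.map j := by
  have h1 : LExp 1 f (HahnSeries.ofPowerSeries ℤ ℂ (qExpansion 1 f)) := by
    refine LExp.of_hasSum fun τ => ?_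
    have := UpperHalfPlane.hasSum_qExpansion (h := 1) one_pos (by simpa using hf.1)
      hf.2.1 hf.2.2 τ
    simpa using this
  have h2 := h.unique one_pos h1
  have hc : ∀ k : ℤ, j (z.coeff k) =
      (HahnSeries.ofPowerSeries ℤ ℂ (qExpansion 1 f)).coeff k := by
    intro k
    rw [← h2, coeffMap_coeff]
  refine ⟨PowerSeries.mk fun k => z.coeff k, ?_, ?_⟩
  · ext k
    rcases le_or_gt 0 k with hk | hk
    · lift k to ℕ using hk
      rw [HahnSeries.ofPowerSeries_apply_coeff, PowerSeries.coeff_mk]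
    · rw [ModularCurve.ofPowerSeries_coeff_of_neg _ hk]
      have := hc k
      rw [ModularCurve.ofPowerSeries_coeff_of_neg _ hk] at this
      exact (map_eq_zero_iff j hj).mp this
  · ext k
    rw [PowerSeries.coeff_map, PowerSeries.coeff_mk, hc, HahnSeries.ofPowerSeries_apply_coeff]

/-- common weights for functions with character -/
theorem IsCF.exists_common' {K : Type*} [Field K] {ι : K →+* ℂ} {Γ : Subgroup SL(2, ℤ)}
    [Γ.FiniteIndex] {χ : Γ →* ℂˣ} {F : ℍ → ℂ} {y : LaurentSeries K} (hF : IsCF ι Γ χ F y) :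
    ∃ m : ℕ, ∀ m' ≥ m, CharForm Γ χ (12 * m') (fun τ => F τ * discriminant τ ^ m') := by
  obtain ⟨m, hm⟩ := hF.exists_charForm
  refine ⟨m, fun m' hm' => ?_⟩
  obtain ⟨j, rfl⟩ := Nat.exists_eq_add_of_le hm'
  have h1 := (hm.mul ((charForm_delta Γ).pow j)).weight_congr
    (l := 12 * ((m + j : ℕ) : ℤ)) (by push_cast; ring)
  have h2 : (fun τ => F τ * discriminant τ ^ m) * discriminant ^ j =
      fun τ => F τ * discriminant τ ^ (m + j) := by
    funext τ
    simp only [Pi.mul_apply, Pi.pow_apply]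
    rw [pow_add, mul_assoc]
  rw [h2] at h1
  exact h1.char_congr (by ext γ; simp)

theorem redS_deltaC_ne_zero (A : ValuationSubring Qbar) : redS A (deltaC A) ≠ 0 := by
  intro h
  have h1 : redS A (deltaC A * deltaInvC A) = 0 := by rw [map_mul, h, zero_mul]
  rw [deltaC_mul_deltaInvC, map_one] at h1
  exact one_ne_zero h1

theorem keyFun_of_keyForm {ι : Qbar →+* ℂ} {M : ℕ} {Γ : Subgroup SL(2, ℤ)} [Between M Γ]
    [GoodGroup Γ] {n : ℕ} {A : ValuationSubring Qbar} (key : KeyForm ι Γ n A) :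
    KeyFun ι M Γ n A := by
  intro ψ hψ F H y Y Z hF hY hH hZ0 hred
  have hT := GoodGroup.T_mem (Γ := Γ)
  obtain ⟨m₁, h₁⟩ := hF.exists_common'
  obtain ⟨m₂, h₂⟩ := (IsCF.ofIsMF hH).exists_common'
  set m := max m₁ m₂ with hm
  have c₁ := h₁ m (le_max_left _ _)
  have c₂ := h₂ m (le_max_right _ _)
  have hψ' := xGroup_le n hψ
  have hinj : Function.Injective (ι.comp A.subtype) :=
    ι.injective.comp Subtype.val_injective
  have hcomp : ∀ W : LaurentSeries A, coeffMap (ι.comp A.subtype) W = coeffMap ι (incl A W) := by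
    intro W
    rw [coeffMap_comp]
  have hδ : ∀ {R : Type} [CommRing R] (f : A →+* R), coeffMap f (deltaC A) = deltaC R :=
    fun f => coeffMap_deltaC f
  -- `g ^ n`
  have cn : CharForm Γ 1 (n * (12 * m : ℤ)) ((fun τ => F τ * discriminant τ ^ m) ^ n) :=
    (c₁.pow n).char_congr hψ'.1
  have ln : LExp 1 ((fun τ => F τ * discriminant τ ^ m) ^ n)
      (coeffMap (ι.comp A.subtype) (Y * deltaC A ^ (m * n))) := by
    rw [map_mul, map_pow, coeffMap_deltaC, hcomp, hY, map_pow, pow_mul, ← mul_pow]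
    exact (hF.lexp.mul (lexp_discriminant'.pow m)).pow n
  obtain ⟨PG, hPG, hqG⟩ := exists_powerSeries' hinj (cn.mem_qAlg (hTΓ := hT) rfl) ln
  have lh : LExp 1 (fun τ => H τ * discriminant τ ^ m)
      (coeffMap (ι.comp A.subtype) (Z * deltaC A ^ m)) := by
    rw [map_mul, map_pow, coeffMap_deltaC, hcomp]
    have := hH.lexp
    rw [Nat.cast_one] at this
    exact this.mul (lexp_discriminant'.pow m)
  obtain ⟨PH, hPH, hqH⟩ := exists_powerSeries' hinj (c₂.mem_qAlg (hTΓ := hT) rfl) lh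
  have rG : HahnSeries.ofPowerSeries ℤ _ (PG.map (IsLocalRing.residue A)) =
      redS A (Y * deltaC A ^ (m * n)) := by
    rw [hPG, X0Emb.coeffMap_ofPowerSeries]
  have rH : HahnSeries.ofPowerSeries ℤ _ (PH.map (IsLocalRing.residue A)) =
      redS A (Z * deltaC A ^ m) := by
    rw [hPH, X0Emb.coeffMap_ofPowerSeries]
  refine key _ ψ hψ'.1 hψ'.2 _ _ c₁ c₂ PG PH hqG hqH ?_ ?_
  · apply HahnSeries.ofPowerSeries_injective (Γ := ℤ)
    rw [map_pow, rG, rH, map_mul, map_mul, hred, mul_pow, map_pow, map_pow, pow_mul]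
  · intro h0
    rw [h0, map_zero] at rH
    rw [map_mul, map_pow] at rH
    exact mul_ne_zero hZ0 (pow_ne_zero m (redS_deltaC_ne_zero A)) rH.symm

end Fermat.Agent.X1Char
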